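import Fermat.Agent.PSEMI.Series.Fixed
import Fermat.Agent.PSEMI.Series.Kill

/-!
# Congruence of series modulo `n`-th powers

`Cong K n c` compares nice series up to `n`-th powers to within `c`; it is compatible with
dilations, norms and coefficient automorphisms.
-/

set_option autoImplicit false

noncomputable section

namespace FermatAgent.PSEMI

open FermatAgent.ES FermatAgent.Curve.Red
open FermatAgent.BAD (expandL expandL_coeff_mul)
open ModularCurve (coeffMap coeffMap_coeff)

variable {p : ℕ} [hp : Fact p.Prime] {P : CPlace p} {K : Coeffs P} {n : ℕ} {c : ℝ}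
  {x y z x' y' : LaurentSeries ℂ}

/-- An integral series with a unit coefficient, over a finitely generated ring. -/
def Nice (K : Coeffs P) (y : LaurentSeries ℂ) : Prop := Fine K y ∧ P.UnitCoeff y

section

omit hp

namespace Nice

/-- A nice series is integral. -/
theorem serIn (h : Nice K y) : SerIn P.ring y := h.1.serIn

/-- Products of nice series are nice. -/
theorem mul (h : Nice K x) (h' : Nice K y) : Nice K (x * y) :=
  ⟨h.1.mul h'.1, CPlace.UnitCoeff.mul h.serIn h'.serIn h.2 h'.2⟩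

/-- Powers of nice series are nice. -/
theorem pow (h : Nice K x) (k : ℕ) : Nice K (x ^ k) := ⟨h.1.pow k, h.2.pow h.serIn k⟩

/-- One is nice. -/
theorem one : Nice K (1 : LaurentSeries ℂ) := ⟨Fine.one, ⟨0, by simp⟩⟩

/-- Expanding `τ ↦ q τ` preserves niceness. -/
theorem expandL {q : ℕ} [NeZero q] (h : Nice K x) : Nice K (BAD.expandL q x) := by
  obtain ⟨i, hi⟩ := h.2
  exact ⟨h.1.expandL, ⟨(q : ℤ) * i, by rw [expandL_coeff_mul, hi]⟩⟩

/-- Isometric coefficient automorphisms preserve niceness. -/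
theorem coeffMap {σ : ℂ ≃+* ℂ} (hσ : ∀ x, P.abv (σ x) = P.abv x)
    (hfine : ∀ s, Fine K s → Fine K (ModularCurve.coeffMap σ.toRingHom s)) (h : Nice K x) :
    Nice K (ModularCurve.coeffMap σ.toRingHom x) := by
  obtain ⟨i, hi⟩ := h.2
  refine ⟨hfine _ h.1, ⟨i, ?_⟩⟩
  rw [coeffMap_coeff]
  exact (hσ _).trans hi

end Nice

/-- `x` and `y` agree modulo `n`-th powers to precision `c`. -/
def Cong (K : Coeffs P) (n : ℕ) (c : ℝ) (x y : LaurentSeries ℂ) : Prop :=
  PowApprox K n c (x * y ^ (n - 1))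

/-- A nice series is congruent to itself. -/
theorem Cong.refl (hn : n ≠ 0) (hc : 0 ≤ c) (hx : Nice K x) : Cong K n c x x := by
  rw [Cong, mul_pow_sub_one hn]
  exact powApprox_pow hx.1 hc n

/-- Congruence to one is being an approximate power. -/
theorem cong_one_iff : Cong K n c x 1 ↔ PowApprox K n c x := by rw [Cong, one_pow, mul_one]

/-- If `x y ^ n` is an approximate power then so is `x`, for a nice `y`. -/
theorem PowApprox.cancel (hn : n ≠ 0) (hc : 0 < c) (hc1 : c < 1) (hy : Nice K y) (hx : Fine K x)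
    (h : PowApprox K n c (x * y ^ n)) : PowApprox K n c x :=
  h.of_mul hn hc hc1 hx.serIn (hy.serIn.pow n) (hy.2.pow hy.serIn n) (powApprox_pow hy.1 hc.le n)

/-- Congruence is symmetric on nice series. -/
theorem Cong.symm (hn : n ≠ 0) (hc : 0 < c) (hc1 : c < 1) (hx : Nice K x) (hy : Nice K y)
    (h : Cong K n c x y) : Cong K n c y x := by
  have h1 := h.pow hc.le (hx.mul (hy.pow _)).serIn (n - 1)
  rcases Nat.lt_or_ge n 2 with h2 | h2
  · obtain rfl : n = 1 := by omega
    exact ⟨_, hy.1.mul (hx.1.pow 0), by simpa using CPlace.SerLE.zero (P := P) hc.le⟩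
  obtain ⟨m, rfl⟩ : ∃ m, n = m + 2 := ⟨n - 2, by omega⟩
  refine PowApprox.cancel hn hc hc1 (hy.pow m) ((hy.1.mul (hx.1.pow _))) ?_
  rw [show y * x ^ (m + 2 - 1) * (y ^ m) ^ (m + 2) = (x * y ^ (m + 2 - 1)) ^ (m + 2 - 1) by
    rw [show m + 2 - 1 = m + 1 from rfl, ← pow_mul, mul_pow, ← pow_mul]; ring]
  exact h1

/-- Congruence is transitive on nice series. -/
theorem Cong.trans (hn : n ≠ 0) (hc : 0 < c) (hc1 : c < 1) (hx : Nice K x) (hy : Nice K y)
    (hz : Nice K z) (h : Cong K n c x y) (h' : Cong K n c y z) : Cong K n c x z := by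
  refine PowApprox.cancel hn hc hc1 hy (hx.1.mul (hz.1.pow _)) ?_
  rw [show x * z ^ (n - 1) * y ^ n = x * y ^ (n - 1) * (y * z ^ (n - 1)) by
    rw [← mul_pow_sub_one hn y]; ring]
  exact h.mul hc.le (hy.mul (hz.pow _)).serIn h'

/-- Congruences multiply. -/
theorem Cong.mul (hc : 0 ≤ c) (hx' : Nice K x') (hy' : Nice K y')
    (h : Cong K n c x y) (h' : Cong K n c x' y') : Cong K n c (x * x') (y * y') := by
  rw [Cong, mul_pow, show x * x' * (y ^ (n - 1) * y' ^ (n - 1)) =
    x * y ^ (n - 1) * (x' * y' ^ (n - 1)) by ring]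
  exact PowApprox.mul hc (hx'.mul (hy'.pow _)).serIn h h'

/-- A series congruent to an approximate power is one. -/
theorem Cong.powApprox (hn : n ≠ 0) (hc : 0 < c) (hc1 : c < 1) (hx : Nice K x) (hy : Nice K y)
    (h : Cong K n c x y) (hy' : PowApprox K n c y) : PowApprox K n c x :=
  h.of_mul hn hc hc1 hx.serIn (hy.serIn.pow _) (hy.2.pow hy.serIn _)
    (hy'.pow hc.le hy.serIn _)

/-- Expanding preserves approximate powers. -/
theorem PowApprox.expandL {q : ℕ} [NeZero q] (hc : 0 ≤ c) (h : PowApprox K n c x) :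
    PowApprox K n c (BAD.expandL q x) := by
  obtain ⟨s, hs, hle⟩ := h
  exact ⟨_, hs.expandL, by rw [← map_pow, ← map_sub]; exact BAD.serLE_expandL hc hle⟩

/-- Expanding preserves congruences. -/
theorem Cong.expandL {q : ℕ} [NeZero q] (hc : 0 ≤ c) (h : Cong K n c x y) :
    Cong K n c (BAD.expandL q x) (BAD.expandL q y) := by
  rw [Cong, ← map_pow, ← map_mul]
  exact PowApprox.expandL hc h

end

/-- Norms of nice series are nice. -/
theorem Nice.nrm (h : Nice K x) : Nice K (PSEMI.nrm p x) := by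
  refine ⟨h.1.nrm, ?_⟩
  rw [← red_ne_zero_iff h.1.nrm.serIn]
  intro h0
  refine (red_ne_zero_iff h.serIn).mpr h.2 (HahnSeries.ext (funext fun k => ?_))
  have h1 := coeff_red_nrm h.serIn k
  rw [h0, HahnSeries.coeff_zero] at h1
  rw [HahnSeries.coeff_zero]
  exact eq_zero_of_pow_eq_zero h1.symm

theorem serLE_nrm_sub (hc : 0 ≤ c) (hs : SerIn P.ring x) (ht : SerIn P.ring y)
    (h : P.SerLE c (x - y)) : P.SerLE c (PSEMI.nrm p x - PSEMI.nrm p y) := by
  classical
  intro k
  rw [HahnSeries.coeff_sub, coeff_nrm, coeff_nrm, ← HahnSeries.coeff_sub]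
  have key : ∀ A : Finset (ZMod p),
      P.SerLE c (∏ j ∈ A, conjSer p x j - ∏ j ∈ A, conjSer p y j) := by
    intro A
    induction A using Finset.induction_on with
    | empty => simpa using CPlace.SerLE.zero (P := P) hc
    | insert a A ha ih =>
      have hin : ∀ {s : LaurentSeries ℂ}, SerIn P.ring s → ∀ j, SerIn P.ring (conjSer p s j) :=
        fun hs j => BAD.serIn_twist hs zetaC_mem_ring _
      rw [Finset.prod_insert ha, Finset.prod_insert ha,
        show conjSer p x a * ∏ j ∈ A, conjSer p x j -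
        conjSer p y a * ∏ j ∈ A, conjSer p y j = (conjSer p x a - conjSer p y a) *
          (∏ j ∈ A, conjSer p x j) + conjSer p y a * ((∏ j ∈ A, conjSer p x j) -
            ∏ j ∈ A, conjSer p y j) by ring]
      refine CPlace.SerLE.add (CPlace.SerLE.mul_serIn hc (fun m => ?_)
        (Finset.prod_induction _ (SerIn P.ring) (fun _ _ => SerIn.mul) SerIn.one
          fun j _ => hin hs j))
        (CPlace.SerLE.serIn_mul hc (hin ht a) ih)
      rw [conjSer, conjSer, ← BAD.twistSer_sub, coeff_twistSer, map_mul, map_zpow₀, map_pow,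
        P.abv_eq_one_of_pow_eq_one hp.out.ne_zero zetaC_pow_self, one_pow, one_zpow, mul_one]
      exact h m
  exact key _ _

/-- The norm of an approximate power is one. -/
theorem PowApprox.nrm (hc : 0 ≤ c) (hx : SerIn P.ring x) (h : PowApprox K n c x) :
    PowApprox K n c (PSEMI.nrm p x) := by
  obtain ⟨s, hs, hle⟩ := h
  exact ⟨_, hs.nrm, by rw [← nrm_pow]; exact serLE_nrm_sub hc hx (hs.serIn.pow n) hle⟩

/-- Norms of congruent series are congruent. -/
theorem Cong.nrm (hc : 0 ≤ c) (hx : Nice K x) (hy : Nice K y) (h : Cong K n c x y) :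
    Cong K n c (PSEMI.nrm p x) (PSEMI.nrm p y) := by
  rw [Cong, ← nrm_pow, ← nrm_mul]
  exact PowApprox.nrm hc (hx.mul (hy.pow _)).serIn h

omit hp in
/-- Isometric coefficient automorphisms preserve approximate powers. -/
theorem PowApprox.coeffMap {σ : ℂ ≃+* ℂ} (hσ : ∀ x, P.abv (σ x) = P.abv x)
    (hfine : ∀ s, Fine K s → Fine K (ModularCurve.coeffMap σ.toRingHom s))
    (h : PowApprox K n c x) : PowApprox K n c (ModularCurve.coeffMap σ.toRingHom x) := by
  obtain ⟨s, hs, hle⟩ := h
  refine ⟨_, hfine _ hs, fun k => ?_⟩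
  rw [← map_pow, ← map_sub, coeffMap_coeff]
  exact (hσ _).trans_le (hle k)

/-- The precision to which classes are compared. -/
abbrev Near1 (K : Coeffs P) (x y : LaurentSeries ℂ) : Prop := Cong K p (rp P ^ p) x y

/-- The precision `|ζ - 1| ^ p` is positive. -/
theorem rpp_pos : 0 < rp P ^ p := pow_pos rp_pos p

/-- The precision `|ζ - 1| ^ p` is `< 1`. -/
theorem rpp_lt_one : rp P ^ p < 1 := pow_lt_one₀ rp_nonneg rp_lt_one hp.out.ne_zero

/-- A series congruent to its expansion is near `p`-th powers. -/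
theorem powApprox_of_cong_expandL {N : ℕ} (hN : N ≠ 0) [NeZero (p ^ N)] (hy : Nice K y)
    (h : Near1 K (BAD.expandL (p ^ N) y) y) : PowApprox K p (rp P ^ p) y :=
  powApprox_of_almostFixed hN hy.1 hy.2 h

/-- A killed series is near `p`-th powers. -/
theorem powApprox_of_cong_killed {σ : ℂ ≃+* ℂ} (hσ : Mover K σ) (hy : Nice K y)
    (h : PowApprox K p (rp P ^ p) (BAD.expandL p y * PSEMI.nrm p y))
    (h' : Near1 K (ModularCurve.coeffMap σ.toRingHom y) y) : PowApprox K p (rp P ^ p) y :=
  powApprox_of_killed hσ hy.1 hy.2 ⟨h, h'⟩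

end FermatAgent.PSEMI
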