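import Fermat.Agent.PSEMI.Class.Twist
import Fermat.Agent.PSEMI.Class.Cong
import Fermat.Agent.PSEMI.LevelMp.Bound

/-!
# Classes of multipliers

The class of a multiplier `χ` of exponent `n` on `±(Γ₀(p) ∩ Γ(M))` is the normalised `n`-th power
of the series at `∞` of a form with multiplier `χ`; it is well defined up to `n`-th powers.
-/

set_option autoImplicit false

open UpperHalfPlane CongruenceSubgroup
open scoped MatrixGroups ModularForm Manifold

noncomputable section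

namespace FermatAgent.PSEMI

open FermatAgent.ES (IsTwist IsParChar parGroup charOp transferFun CPlace AuxLevel HasExp HasLExp
  lexp lexp_eq hasLExp_lexp act SerIn zetaC twistSer auxW dif refA refB vmul difLaurent)
open FermatAgent.BAD (dilFun ctrPt expandL expandL_coeff_mul atkinMat)
open FermatAgent.Period (TransferData)
open ModularForm (heckeMatrix)
open LevelMp (pmLam)

variable {p : ℕ} [hp : Fact p.Prime] {M : ℕ} [NeZero M] {Γ Γ' : Subgroup SL(2, ℤ)}
  {P : CPlace p} {K : Coeffs P} {n : ℕ} {χ χ' : Γ →* ℂˣ} {y y' : LaurentSeries ℂ}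

variable (K) in
/-- `y` is a class of `χ`. -/
def IsClass (n : ℕ) (χ : Γ →* ℂˣ) (y : LaurentSeries ℂ) : Prop :=
  Nice K y ∧ IsParChar Γ χ ∧ ∃ (i : ℕ) (v : ℍ → ℂ) (s : LaurentSeries ℂ) (a : ℂ),
    IsTwist Γ ((2 * i : ℕ) : ℤ) χ v ∧ v ≠ 0 ∧ HasLExp 1 v s ∧ a ≠ 0 ∧
      y = HahnSeries.C a * s ^ n

variable (p M) in
/-- `χ` has exponent `n` on `±(Γ₀(p) ∩ Γ(M))`. -/
def KillsPm (n : ℕ) (χ : Γ →* ℂˣ) : Prop := ∀ γ : Γ, (γ : SL(2, ℤ)) ∈ pmLam p M → χ γ ^ n = 1

variable (p M) in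
/-- Equality on `±(Γ₀(p) ∩ Γ(M))`. -/
def EqPm (χ χ' : Γ →* ℂˣ) : Prop := ∀ γ : Γ, (γ : SL(2, ℤ)) ∈ pmLam p M → χ γ = χ' γ

omit hp in
theorem fine_of_expandL {q : ℕ} [NeZero q] {s : LaurentSeries ℂ} (h : Fine K (expandL q s)) :
    Fine K s := by
  obtain ⟨S, hS, hin⟩ := h
  exact ⟨S, hS, fun k => by rw [← expandL_coeff_mul q s k]; exact hin _⟩

omit hp in
/-- Normalisation. -/
theorem exists_nice_smul {s : LaurentSeries ℂ} (hs : s ≠ 0) {b : ℂ} (hb : b ≠ 0)
    (h : Fine K (HahnSeries.C b * s)) : ∃ a : ℂ, a ≠ 0 ∧ Nice K (HahnSeries.C a * s) := by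
  obtain ⟨S, hS, hin⟩ := h
  have hne : HahnSeries.C b * s ≠ 0 :=
    mul_ne_zero (fun h0 => hb (HahnSeries.C_injective (h0.trans (map_zero _).symm))) hs
  obtain ⟨c, -, hc0, t, ht, hu, e, -⟩ := exists_content (K.isCDVR hS) hin hne
  refine ⟨c⁻¹ * b, mul_ne_zero (inv_ne_zero hc0) hb, ?_⟩
  rw [map_mul, mul_assoc, e, ← mul_assoc, ← map_mul, inv_mul_cancel₀ hc0, map_one, one_mul]
  exact ⟨⟨S, hS, ht⟩, hu⟩

omit hp in
/-- If two nice series are proportional, the factor is a unit. -/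
theorem abv_eq_one_of_nice {u : ℂ} {t : LaurentSeries ℂ} (ht : Nice K t)
    (h : Nice K (HahnSeries.C u * t)) : P.abv u = 1 := by
  obtain ⟨i, hi⟩ := ht.2
  obtain ⟨j, hj⟩ := h.2
  have e : ∀ k, P.abv ((HahnSeries.C u * t).coeff k) = P.abv u * P.abv (t.coeff k) := fun k => by
    rw [HahnSeries.C_apply, HahnSeries.coeff_single_mul, sub_zero, map_mul]
  refine le_antisymm ?_ ?_
  · have h1 := h.serIn i
    rw [CPlace.mem_ring, e, hi, mul_one] at h1
    exact h1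
  · rw [e] at hj
    calc (1 : ℝ) = P.abv u * P.abv (t.coeff j) := hj.symm
      _ ≤ P.abv u := mul_le_of_le_one_right (P.abv.nonneg _) (ht.serIn j)

/-- The product over the translates `(τ + j) / p` has the norm as its series. -/
theorem hasLExp_nrm {f : ℍ → ℂ} {s : LaurentSeries ℂ} (h : HasLExp 1 f s) :
    HasLExp 1 (∏ j : ZMod p, fun τ => f (ctrPt p j.val τ)) (nrm p s) := by
  have h1 : HasLExp (p * 1) (∏ j : ZMod p, fun τ => f (ctrPt p j.val τ))
      (∏ j : ZMod p, conjSer p s j) := by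
    refine HasLExp.prod _ fun j _ => ?_
    have := BAD.hasLExp_ctrPt p h j.val
    rwa [show zetaC (p * 1) = zetaC p by rw [mul_one]] at this
  rw [← expandL_nrm] at h1
  obtain ⟨t, ht, e⟩ := BAD.exists_hasLExp_descend (q := p) (M := 1) h1
    fun m hm => BAD.expandL_coeff_of_not_dvd p _ hm
  rw [BAD.expandL_injective p e]; exact ht

variable (hM : M.Coprime p) (L : IsLevel p M Γ Γ')

include L in
/-- A form with parabolic multiplier has an expansion at `∞` of width one. -/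
theorem exists_series {k : ℤ} (hχ : IsParChar Γ χ) {v : ℍ → ℂ} (hv : IsTwist Γ k χ v) :
    ∃ s, HasLExp 1 v s := by
  have : NeZero (p * M) := ⟨mul_ne_zero (NeZero.ne p) (NeZero.ne M)⟩
  have h := HasLExp.of_exp (ES.hasExp_slash_twist L.gamma_qM_le hχ hv 1)
  rw [SlashAction.slash_one] at h
  refine (exists_hasLExp_of_periodic (d := 1) (r := p * M) (mul_one _) h fun τ => ?_).imp
    fun t ht => ht.1
  have h1 := congrFun (hv.slash ⟨_, L.T_mem'⟩) τ
  rw [hχ ⟨_, L.T_mem'⟩ (by simp [ModularGroup.coe_T, Matrix.trace_fin_two]),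
    Units.val_one, one_mul] at h1
  have h2 := congrFun (ES.slash_T_zpow v k 1) τ
  rw [zpow_one] at h2
  rw [← h1, h2]
  simp

theorem series_ne_zero {v : ℍ → ℂ} (hv0 : v ≠ 0) {s : LaurentSeries ℂ} (h : HasLExp 1 v s) :
    s ≠ 0 := fun h0 => hv0 (by subst h0; exact h.eq_of_series HasLExp.zero)

variable {m : ℕ} (haux : AuxLevel M m)

include L in
/-- A form divided by the power of the auxiliary form of its weight has expansions at all cusps. -/
theorem exists_hasLExp_div {j : ℕ} (hχ : IsParChar Γ χ) {v : ℍ → ℂ}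
    (hv : IsTwist Γ ((2 * j : ℕ) : ℤ) χ v) (γ : SL(2, ℤ)) :
    ∃ s, HasLExp (p * M) (act γ fun τ => v τ / auxW haux τ ^ j) s := by
  have : NeZero (p * M) := ⟨mul_ne_zero (NeZero.ne p) (NeZero.ne M)⟩
  have hexp := ES.hasExp_slash_twist L.gamma_qM_le hχ hv γ
  have hadm := (ES.adm_ref haux).mul γ
  have hd := BAD.hasLExp_raise p ((ES.hasLExp_dif (M := M) hadm.left hadm.right).pow j)
  have hne : expandL p (difLaurent M (zetaC M) (vmul M (refB haux.dvd) γ)
      (vmul M (refA haux.dvd) γ) ^ j) ≠ 0 := fun h0 => pow_ne_zero j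
    (ES.leadUnit_difLaurent ES.zetaC_goodRoot_top hadm.left hadm.right hadm.ne hadm.ne_neg).ne_zero
    (BAD.expandL_injective p (h0.trans (map_zero _).symm))
  refine ⟨_, ((HasLExp.of_exp hexp).mul
    (hd.inv (fun τ => pow_ne_zero _ (hadm.dif_ne_zero τ)) hne)).congr_fun fun τ => ?_⟩
  have h := congrFun (ES.slash_eq_act_div_mul haux j v γ) τ
  simp only [Pi.mul_apply, Pi.inv_apply, Pi.pow_apply] at h ⊢
  rw [h, mul_assoc, mul_inv_cancel₀ (pow_ne_zero _ (hadm.dif_ne_zero τ)), mul_one]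

include L in
/-- A form with trivial multiplier gives a function of the model. -/
theorem div_mem_LSub {j : ℕ} (hχ : IsParChar Γ χ) {v : ℍ → ℂ}
    (hv : IsTwist Γ ((2 * j : ℕ) : ℤ) χ v) (h1 : KillsPm p M 1 χ) :
    (fun τ => v τ / auxW haux τ ^ j) ∈ BAD.LSub p M := by
  have hinv : ∀ γ ∈ BAD.lam p M, act γ (fun τ => v τ / auxW haux τ ^ j) =
      fun τ => v τ / auxW haux τ ^ j := fun γ hγ => by
    have h2 := h1 ⟨γ, L.lam_le hγ⟩ (Or.inl hγ)
    rw [pow_one] at h2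
    rw [ES.act_div_auxW haux hγ.2 (hv.slash ⟨γ, L.lam_le hγ⟩), h2, Units.val_one, one_smul]
  exact ⟨⟨fun γ hγ => hinv γ (BAD.gamma_qM_le hγ), exists_hasLExp_div L haux hχ hv⟩, hinv⟩

variable (M) in
/-- The series of the auxiliary form. -/
def wSer : LaurentSeries ℂ := difLaurent M (zetaC M) (refB haux.dvd) (refA haux.dvd)

omit hp in
include hM in
/-- The series of the auxiliary form has coefficients in one coefficient ring. -/
theorem fine_wSer : Fine K (wSer M haux) := by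
  classical
  have hS : (({zetaC M} : Finset ℂ) : Set ℂ) ⊆ P.ring := by
    simpa using LevelMp.zetaC_mem P M
  have hg : ES.GoodRoot M (K.R ({zetaC M} : Finset ℂ)) (zetaC M) :=
    (K.isCDVR hS).goodRoot (P.goodRoot hM) (K.subset hS (by simp))
  have h := ES.adm_ref (M := M) haux
  exact ⟨_, hS, (ES.leadUnit_difLaurent hg h.left h.right h.ne h.ne_neg).serIn⟩

/-- The auxiliary form has the expansion `wSer` at `∞`. -/
theorem hasLExp_auxW : HasLExp M (auxW haux) (wSer M haux) :=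
  ES.hasLExp_dif (M := M) (ES.adm_ref haux).left (ES.adm_ref haux).right

include L in
theorem lexp_one_eq {j : ℕ} (hχ : IsParChar Γ χ) {v : ℍ → ℂ}
    (hv : IsTwist Γ ((2 * j : ℕ) : ℤ) χ v) (h1 : KillsPm p M 1 χ) {s : LaurentSeries ℂ}
    (hs : HasLExp 1 v s) :
    lexp M 1 (fun τ => v τ / auxW haux τ ^ j) * wSer M haux ^ j = expandL M s := by
  have hf := div_mem_LSub L haux hχ hv h1
  have h := (LevelMp.hasLExp_inf (p := p) hf (one_mem _)).mul
    ((hasLExp_auxW haux).pow j)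
  rw [ES.act_one] at h
  have h2 := BAD.hasLExp_raise M hs
  rw [mul_one] at h2
  refine (h.congr_fun fun τ => ?_).series_unique h2
  simp only [Pi.mul_apply, Pi.pow_apply, div_mul_cancel₀ _ (pow_ne_zero _ (ES.auxW_ne_zero haux τ))]

include hM L haux in
/-- Series of forms with trivial multiplier on the model are bounded. -/
theorem exists_bound {j : ℕ} (hχ : IsParChar Γ χ) {v : ℍ → ℂ}
    (hv : IsTwist Γ ((2 * j : ℕ) : ℤ) χ v) (h1 : KillsPm p M 1 χ) {s : LaurentSeries ℂ}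
    (hs : HasLExp 1 v s) : ∃ b : ℂ, b ≠ 0 ∧ Fine K (HahnSeries.C b * s) := by
  obtain ⟨a, ha, h⟩ := LevelMp.exists_fine_inf hM haux K (div_mem_LSub L haux hχ hv h1)
  refine ⟨a, ha, fine_of_expandL (q := M) ?_⟩
  rw [map_mul, ← lexp_one_eq L haux hχ hv h1 hs, ← mul_assoc, show expandL M
    (HahnSeries.C a : LaurentSeries ℂ) = HahnSeries.C a by
      rw [HahnSeries.C_apply, BAD.expandL_single, mul_zero]]
  exact h.mul ((fine_wSer hM haux).pow _)

omit hp [NeZero M] in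
/-- If `χ` has exponent `n` on `±(Γ₀(p) ∩ Γ(M))` then `χ ^ n` is trivial there. -/
theorem killsPm_pow (h : KillsPm p M n χ) : KillsPm p M 1 (χ ^ n) := fun γ hγ => by
  rw [pow_one, MonoidHom.pow_apply, h γ hγ]



theorem weight_mul (i n : ℕ) : (n : ℤ) * ((2 * i : ℕ) : ℤ) = ((2 * (n * i) : ℕ) : ℤ) := by
  push_cast; ring

theorem weight_add (i i' : ℕ) :
    ((2 * i : ℕ) : ℤ) + ((2 * i' : ℕ) : ℤ) = ((2 * (i + i') : ℕ) : ℤ) := by
  push_cast; ring

include hM L haux in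
/-- Every form gives a class. -/
theorem exists_isClass_of_form (hn : KillsPm p M n χ) (hχ : IsParChar Γ χ) {i : ℕ}
    {v : ℍ → ℂ} (hv : IsTwist Γ ((2 * i : ℕ) : ℤ) χ v) (hv0 : v ≠ 0) {s : LaurentSeries ℂ}
    (hs : HasLExp 1 v s) :
    ∃ a : ℂ, a ≠ 0 ∧ IsClass K n χ (HahnSeries.C a * s ^ n) := by
  have hvn := hv.pow n
  rw [weight_mul] at hvn
  obtain ⟨b, hb, h⟩ := exists_bound hM L haux (isParChar_pow hχ n) hvn (killsPm_pow hn)
    (hs.pow n) (K := K)
  obtain ⟨a, ha, hnice⟩ := exists_nice_smul (pow_ne_zero n (series_ne_zero hv0 hs)) hb h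
  exact ⟨a, ha, hnice, hχ, i, v, s, a, hv, hv0, hs, ha, rfl⟩

include hM L haux in
/-- Every parabolic character with exponent `n` on `±(Γ₀(p) ∩ Γ(M))` has a class. -/
theorem exists_isClass {n' : ℕ} [NeZero n'] (hn : KillsPm p M n χ) (hχ : χ ∈ parGroup Γ n') :
    ∃ y, IsClass K n χ y := by
  have hv : IsTwist Γ ((2 * 2 : ℕ) : ℤ) χ (ES.twistEis χ) := by
    exact_mod_cast ES.isTwist_twistEis hχ.1 hχ.2
  obtain ⟨s, hs⟩ := exists_series L hχ.2 hv
  obtain ⟨a, -, h⟩ := exists_isClass_of_form (K := K) hM L haux hn hχ.2 hv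
    (ES.twistEis_ne_zero hχ.1 hχ.2 L.neg_one_mem) hs
  exact ⟨_, h⟩

include hM L haux in
/-- **Classes are well defined.** -/
theorem IsClass.triv (hn0 : n ≠ 0) (h : IsClass K n χ y) (h' : IsClass K n χ' y')
    (heq : EqPm p M χ χ') (hk : KillsPm p M n χ') : Triv K n (y * y' ^ (n - 1)) := by
  obtain ⟨hy, hpar, i, v, s, a, hv, hv0, hs, ha, rfl⟩ := h
  obtain ⟨hy', hpar', i', v', s', a', hv', hv'0, hs', ha', rfl⟩ := h'
  have hw := hv.mul (hv'.pow (n - 1))
  rw [weight_mul, weight_add] at hw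
  have hk1 : KillsPm p M 1 (χ * χ' ^ (n - 1)) := fun γ hγ => by
    rw [pow_one, MonoidHom.mul_apply, MonoidHom.pow_apply, heq γ hγ, ← pow_succ',
      Nat.sub_add_cancel (Nat.one_le_iff_ne_zero.mpr hn0), hk γ hγ]
  have hpar2 : IsParChar Γ (χ * χ' ^ (n - 1)) := fun γ hγ => by
    rw [MonoidHom.mul_apply, MonoidHom.pow_apply, hpar γ hγ, hpar' γ hγ, one_pow, one_mul]
  set σs := s * s' ^ (n - 1)
  obtain ⟨b, hb, hfine⟩ := exists_bound hM L haux hpar2 hw hk1 (hs.mul (hs'.pow (n - 1))) (K := K)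
  have hne : σs ≠ 0 := mul_ne_zero (series_ne_zero hv0 hs) (pow_ne_zero _ (series_ne_zero hv'0 hs'))
  obtain ⟨c, hc, hnice⟩ := exists_nice_smul hne hb hfine
  set t := HahnSeries.C c * σs
  have e : HahnSeries.C a * s ^ n * (HahnSeries.C a' * s' ^ n) ^ (n - 1) =
      HahnSeries.C (a * a' ^ (n - 1) * (c⁻¹) ^ n) * t ^ n := by
    simp only [t, σs, mul_pow, map_mul, map_pow, ← pow_mul, mul_comm n (n - 1)]
    have hC : (HahnSeries.C c⁻¹ : LaurentSeries ℂ) * HahnSeries.C c = 1 := by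
      rw [← map_mul, inv_mul_cancel₀ hc, map_one]
    calc _ = HahnSeries.C a * HahnSeries.C a' ^ (n - 1) *
          (HahnSeries.C c⁻¹ * HahnSeries.C c) ^ n * (s ^ n * s' ^ ((n - 1) * n)) := by
            rw [hC, one_pow]; ring
      _ = _ := by rw [mul_pow]; ring
  rw [e]
  refine Triv.mul ((hnice.pow n).serIn) (triv_C hn0 ?_) (triv_pow hnice.1)
  exact abv_eq_one_of_nice (hnice.pow n) (e ▸ hy.mul (hy'.pow _))

include hM L haux in
/-- Classes of characters equal on `±(Γ₀(p) ∩ Γ(M))` are congruent to every precision. -/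
theorem IsClass.cong (hn0 : n ≠ 0) {c : ℝ} (hc : 0 < c) (h : IsClass K n χ y)
    (h' : IsClass K n χ' y') (heq : EqPm p M χ χ') (hk : KillsPm p M n χ') :
    Cong K n c y y' :=
  h.triv hM L haux hn0 h' heq hk c hc

omit hp in
/-- The trivial character has the class one. -/
theorem isClass_one : IsClass K n (1 : Γ →* ℂˣ) 1 :=
  ⟨Nice.one, fun _ _ => rfl, 0, 1, 1, 1, by simpa using ES.isTwist_one, one_ne_zero,
    HasLExp.one, one_ne_zero, by simp⟩

omit hp in
/-- Classes multiply with the characters. -/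
theorem IsClass.mul (h : IsClass K n χ y) (h' : IsClass K n χ' y') :
    IsClass K n (χ * χ') (y * y') := by
  obtain ⟨hy, hpar, i, v, s, a, hv, hv0, hs, ha, rfl⟩ := h
  obtain ⟨hy', hpar', i', v', s', a', hv', hv'0, hs', ha', rfl⟩ := h'
  refine ⟨hy.mul hy', fun γ hγ => by rw [MonoidHom.mul_apply, hpar γ hγ, hpar' γ hγ, one_mul],
    i + i', v * v', s * s', a * a', ?_, ES.mul_ne_zero_of_mdiff hv'.mdiff hv.mdiff hv0 hv'0,
    hs.mul hs', mul_ne_zero ha ha', ?_⟩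
  · rw [← weight_add]; exact hv.mul hv'
  · rw [map_mul, mul_pow]; ring

omit hp in
/-- A power of a class is a class of the same character for the multiplied exponent. -/
theorem IsClass.pow (h : IsClass K n χ y) (q : ℕ) : IsClass K (n * q) χ (y ^ q) := by
  obtain ⟨hy, hpar, i, v, s, a, hv, hv0, hs, ha, rfl⟩ := h
  exact ⟨hy.pow q, hpar, i, v, s, a ^ q, hv, hv0, hs, pow_ne_zero _ ha,
    by rw [mul_pow, ← pow_mul, map_pow]⟩

theorem mdiff_transfer (D : TransferData Γ (ZMod p)) {k : ℤ} {v : ℍ → ℂ} (hv : MDiff v) :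
    MDiff (transferFun D k v) :=
  MDifferentiable.prod fun _ _ => hv.slash k _

theorem transferFun_eq (D : TransferData Γ (ZMod p))
    (hD : ∀ j : ZMod p, D.rep j = heckeMatrix p j.val) (k : ℤ) (v : ℍ → ℂ) :
    transferFun D k v = ((p : ℂ)⁻¹ ^ p) • ∏ j : ZMod p, fun τ => v (ctrPt p j.val τ) := by
  funext τ
  simp only [transferFun, Finset.prod_apply, Pi.smul_apply, smul_eq_mul, hD,
    ModularForm.slash_heckeMatrix_apply k (NeZero.ne p), Finset.prod_mul_distrib,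
    Finset.prod_const, Finset.card_univ, ZMod.card]
  congr 1
  refine Finset.prod_congr rfl fun j _ => congrArg v (UpperHalfPlane.ext ?_)
  rw [ModularForm.coe_heckeMatrix_smul (NeZero.ne p), BAD.coe_ctrPt]

theorem hasLExp_transferFun (D : TransferData Γ (ZMod p))
    (hD : ∀ j : ZMod p, D.rep j = heckeMatrix p j.val) (k : ℤ) {v : ℍ → ℂ} {s : LaurentSeries ℂ}
    (h : HasLExp 1 v s) :
    HasLExp 1 (transferFun D k v) (HahnSeries.C ((p : ℂ)⁻¹ ^ p) * nrm p s) := by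
  rw [transferFun_eq D hD]
  exact ((HasLExp.const _).mul (hasLExp_nrm h)).congr_fun fun τ => rfl

theorem intRep (D : TransferData Γ (ZMod p))
    (hD : ∀ j : ZMod p, D.rep j = heckeMatrix p j.val) (x : ZMod p) (i j : Fin 2) :
    ∃ z : ℤ, (D.rep x : Matrix (Fin 2) (Fin 2) ℝ) i j = z := by
  rw [hD, ModularForm.val_heckeMatrix (NeZero.ne p)]
  fin_cases i <;> fin_cases j
  exacts [⟨1, by simp⟩, ⟨(x.val : ℤ), by simp⟩, ⟨0, by simp⟩, ⟨(p : ℤ), by simp⟩]

/-- **The class of `U χ` is the norm.** -/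
theorem IsClass.transfer (D : TransferData Γ (ZMod p))
    (hD : ∀ j : ZMod p, D.rep j = heckeMatrix p j.val) (h : IsClass K n χ y) :
    IsClass K n (charOp D χ) (nrm p y) := by
  obtain ⟨hy, hpar, i, v, s, a, hv, hv0, hs, ha, rfl⟩ := h
  have hp0 : ((p : ℂ)⁻¹ ^ p) ≠ 0 :=
    pow_ne_zero _ (inv_ne_zero (Nat.cast_ne_zero.mpr (NeZero.ne p)))
  have ht := hv.transfer D (intRep D hD)
  rw [ZMod.card, mul_comm, weight_mul] at ht
  refine ⟨hy.nrm, ES.isParChar_charOp D hpar, p * i, _, _, a ^ p * ((p : ℂ)⁻¹ ^ p)⁻¹ ^ n, ht,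
    ES.transferFun_ne_zero D hv.mdiff hv0, hasLExp_transferFun D hD _ hs,
    mul_ne_zero (pow_ne_zero _ ha) (pow_ne_zero _ (inv_ne_zero hp0)), ?_⟩
  rw [nrm_mul, nrm_pow, nrm_C, mul_pow, ← mul_assoc, ← map_pow, ← map_mul, mul_assoc, ← mul_pow,
    inv_mul_cancel₀ hp0, one_pow, mul_one]

include hM L in
/-- The character operator `U` preserves having exponent `n` on `±(Γ₀(p) ∩ Γ(M))`. -/
theorem killsPm_transfer (D : TransferData Γ (ZMod p))
    (hD : ∀ j : ZMod p, D.rep j = heckeMatrix p j.val) (hpar : IsParChar Γ χ)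
    (hk : KillsPm p M n χ) : KillsPm p M n (charOp D χ) := by
  intro γ hγ
  rw [ES.charOp_apply, ← Finset.prod_pow]
  refine Finset.prod_eq_one fun x _ => ?_
  set g := D.factor γ x
  set x' := D.perm γ x
  have h := D.factor_spec γ x
  rw [hD, hD] at h
  have hg := LevelMp.exists_crt (M := M) (N := p) hM 1 1
  obtain ⟨l, hl⟩ : ∃ l : ℤ, (M : ℤ) ∣ ((x.val : ℤ) - x'.val) - p * l := by
    obtain ⟨u, v, huv⟩ := Nat.isCoprime_iff_coprime.mpr hM
    exact ⟨v * ((x.val : ℤ) - x'.val), u * ((x.val : ℤ) - x'.val),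
      by linear_combination -((x.val : ℤ) - x'.val) * huv⟩
  obtain ⟨t, ht⟩ := hl
  have hd := dilHom_of_hecke_mul (g := L.toG0 g) h
  set Tl : Γ := ⟨ModularGroup.T, L.T_mem'⟩ ^ l
  set g1 : Γ := g * Tl⁻¹
  have hTdil : LevelMp.dilHom p (L.toG0 ⟨ModularGroup.T, L.T_mem'⟩) = ModularGroup.T ^ (p : ℤ) := by
    refine Matrix.SpecialLinearGroup.ext _ _ fun a b => ?_
    rw [ModularGroup.coe_T_zpow]
    fin_cases a <;> fin_cases b <;> simp [IsLevel.toG0, ModularGroup.coe_T]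
  have hd1 : LevelMp.dilHom p (L.toG0 g1) = (ModularGroup.T ^ (x.val : ℤ) * (γ : SL(2, ℤ)) *
      (ModularGroup.T ^ (x.val : ℤ))⁻¹) * ModularGroup.T ^ ((M : ℤ) * t) := by
    rw [map_mul, map_mul, map_inv, map_inv, map_zpow, map_zpow, hTdil, hd, ← zpow_mul,
      ← zpow_natCast, ← zpow_natCast, ← ht]
    simp only [mul_assoc, ← zpow_add, ← zpow_neg]
    congr 2
    all_goals first | rfl | (congr 1; ring)
  have hmem : LevelMp.dilHom p (L.toG0 g1) ∈ pmLam p M := by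
    rw [hd1]
    refine mul_mem ?_ (Or.inl ?_)
    · have hT : ModularGroup.T ^ (x.val : ℤ) ∈ Gamma0 p := by
        rw [Gamma0_mem, ModularGroup.coe_T_zpow]; simp
      rcases hγ with h1 | h1
      · exact Or.inl (BAD.lam_normalised hT h1)
      · refine Or.inr ?_
        rw [← neg_mul, ← mul_neg]
        exact BAD.lam_normalised hT h1
    · refine Subgroup.mem_inf.mpr ⟨?_, Gamma_mem.mpr ?_⟩
      · rw [Gamma0_mem, ModularGroup.coe_T_zpow]; simp
      · rw [ModularGroup.coe_T_zpow]; simp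
  have hpm : (g1 : SL(2, ℤ)) ∈ pmLam p M := by
    rcases hmem with h1 | h1
    · exact Or.inl ⟨(L.toG0 g1).2, LevelMp.of_dilHom_mem_Gamma hM (γ := L.toG0 g1) h1.2⟩
    · refine Or.inr ⟨LevelMp.neg_mem_Gamma0 (L.toG0 g1).2, ?_⟩
      refine LevelMp.of_dilHom_mem_Gamma hM
        (γ := ⟨_, LevelMp.neg_mem_Gamma0 (L.toG0 g1).2⟩) ?_
      rw [LevelMp.dilHom_neg (μ := L.toG0 g1) rfl]
      exact h1.2
  have hT1 : χ ⟨ModularGroup.T, L.T_mem'⟩ = 1 :=
    hpar _ (by simp [ModularGroup.coe_T, Matrix.trace_fin_two])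
  have : χ g = χ g1 := by
    simp only [g1, Tl, map_mul, map_inv, map_zpow, hT1, one_zpow, inv_one, mul_one]
  rw [this, hk g1 hpm]

include L in
/-- The Atkin involution preserves having exponent `n` on `±(Γ₀(p) ∩ Γ(M))`. -/
theorem killsPm_wHom (hk : KillsPm p M n χ) : KillsPm p M n (χ.comp (L.wHom hM)) := by
  intro γ hγ
  refine hk _ ?_
  rw [L.coe_wHom hM]
  have hA0 : ∀ μ : LevelMp.pmLam p M, (μ : SL(2, ℤ)) ∈ Gamma0 p := fun μ => by
    rcases μ.2 with h | h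
    · exact h.1
    · simpa using LevelMp.neg_mem_Gamma0 h.1
  have hw0 := (L.le_gamma0 (L.wHom hM γ).2)
  rw [L.coe_wHom hM] at hw0
  rcases hγ with h | h
  · exact Or.inl ⟨hw0, (Gamma_normal M).conj_mem _
      (LevelMp.dilHom_mem_Gamma hM (γ := L.toG0 γ) h.2) _⟩
  · refine Or.inr ⟨LevelMp.neg_mem_Gamma0 hw0, ?_⟩
    have h2 := LevelMp.dilHom_mem_Gamma hM
      (γ := ⟨_, LevelMp.neg_mem_Gamma0 (L.toG0 γ).2⟩) h.2
    rw [LevelMp.dilHom_neg (μ := L.toG0 γ) rfl] at h2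
    have := (Gamma_normal M).conj_mem _ h2 (atkinMat hM)
    rwa [mul_neg, neg_mul] at this

include hM L haux in
/-- **The key identity for classes.** -/
theorem IsClass.key (hn0 : n ≠ 0) {c : ℝ} (hc : 0 < c) (hc1 : c < 1)
    (D : TransferData Γ (ZMod p)) (hD : ∀ j : ZMod p, D.rep j = heckeMatrix p j.val)
    (hk : KillsPm p M n χ) {Y : LaurentSeries ℂ} (h : IsClass K n χ y)
    (h' : IsClass K n (χ.comp (L.wHom hM)) y')
    (hY : IsClass K n ((χ * charOp D (χ.comp (L.wHom hM))).comp (L.wHom hM)) Y) :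
    Cong K n c Y (expandL p (y * nrm p y')) := by
  obtain ⟨hy, hpar, i, x, s, a, hx, hx0, hs, ha, rfl⟩ := h
  have hparW := L.isParChar_wHom hM hpar
  have hkW := killsPm_wHom hM L hk
  have hz := L.isTwist_wForm hM hx
  have hz0 := wForm_ne_zero hM (k := ((2 * i : ℕ) : ℤ)) hx0
  obtain ⟨sz, hsz⟩ := exists_series L hparW hz
  obtain ⟨a', ha', h''⟩ := exists_isClass_of_form (K := K) hM L haux hkW hparW hz hz0 hsz
  set y'' := HahnSeries.C a' * sz ^ n
  set y0 := HahnSeries.C a * s ^ n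
  have hkU := killsPm_transfer hM L D hD hparW hkW
  have hk' : KillsPm p M n (χ * charOp D (χ.comp (L.wHom hM))) := fun γ hγ => by
    rw [MonoidHom.mul_apply, mul_pow, hk γ hγ, hkU γ hγ, one_mul]
  have hP : IsTwist Γ (((2 * i : ℕ) : ℤ) + ((2 * i : ℕ) : ℤ) * p)
      (χ * charOp D (χ.comp (L.wHom hM)))
      (x * transferFun D ((2 * i : ℕ) : ℤ) (wForm hM ((2 * i : ℕ) : ℤ) x)) := by
    have := hx.mul (hz.transfer D (intRep D hD))
    rwa [ZMod.card] at this
  have hWP := L.isTwist_wForm hM hP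
  obtain ⟨cc, hcc, hkey⟩ := exists_wForm_key hM L D hD hx
  rw [hkey] at hWP
  have hsP := BAD.hasLExp_dilFun p (hs.mul (hasLExp_transferFun D hD ((2 * i : ℕ) : ℤ) hsz))
  have hp0 : ((p : ℂ)⁻¹ ^ p) ≠ 0 :=
    pow_ne_zero _ (inv_ne_zero (Nat.cast_ne_zero.mpr (NeZero.ne p)))
  have hnice := (hy.mul h''.1.nrm).expandL (q := p)
  have hC : ∀ b : ℂ, expandL p (HahnSeries.C b : LaurentSeries ℂ) = HahnSeries.C b := fun b => by
    rw [HahnSeries.C_apply, BAD.expandL_single, mul_zero]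
  have hcl : IsClass K n ((χ * charOp D (χ.comp (L.wHom hM))).comp (L.wHom hM))
      (expandL p (y0 * nrm p y'')) := by
    refine ⟨hnice, hY.2.1, i + p * i,
      cc • dilFun p (x * transferFun D ((2 * i : ℕ) : ℤ) (wForm hM ((2 * i : ℕ) : ℤ) x)),
      HahnSeries.C cc * expandL p (s * (HahnSeries.C ((p : ℂ)⁻¹ ^ p) * nrm p sz)),
      a * a' ^ p * (cc⁻¹ * ((p : ℂ)⁻¹ ^ p)⁻¹) ^ n, ?_, ?_, ?_, ?_, ?_⟩
    · rw [← weight_add, ← weight_mul, mul_comm (p : ℤ)]; exact hWP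
    · refine smul_ne_zero hcc fun h0 => ?_
      have := BAD.dilFun_injective p (h0.trans (map_zero (dilFun p)).symm)
      exact ES.mul_ne_zero_of_mdiff (mdiff_transfer D hz.mdiff) hx.mdiff hx0
        (ES.transferFun_ne_zero D hz.mdiff hz0) this
    · exact ((HasLExp.const cc).mul hsP).congr_fun fun τ => rfl
    · exact mul_ne_zero (mul_ne_zero ha (pow_ne_zero _ ha'))
        (pow_ne_zero _ (mul_ne_zero (inv_ne_zero hcc) (inv_ne_zero hp0)))
    · simp only [y0, y'', map_mul, map_pow, nrm_mul, nrm_pow, nrm_C, hC, mul_pow]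
      have e1 : (HahnSeries.C cc⁻¹ : LaurentSeries ℂ) * HahnSeries.C cc = 1 := by
        rw [← map_mul, inv_mul_cancel₀ hcc, map_one]
      have e2 : (HahnSeries.C ((p : ℂ)⁻¹ ^ p)⁻¹ : LaurentSeries ℂ) *
          HahnSeries.C ((p : ℂ)⁻¹ ^ p) = 1 := by
        rw [← map_mul, inv_mul_cancel₀ hp0, map_one]
      simp only [map_pow] at e2
      calc _ = HahnSeries.C a * HahnSeries.C a' ^ p * (expandL p s ^ n * expandL p (nrm p sz) ^ n) *
            ((HahnSeries.C cc⁻¹ * HahnSeries.C cc) *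
              (HahnSeries.C ((p : ℂ)⁻¹ ^ p)⁻¹ * HahnSeries.C (p : ℂ)⁻¹ ^ p)) ^ n := by
              rw [e1, e2, one_mul, one_pow]; ring
        _ = _ := by rw [mul_pow, mul_pow, mul_pow]; ring
  refine (hY.cong hM L haux hn0 hc hcl (fun _ _ => rfl) (killsPm_wHom hM L hk')).trans hn0 hc hc1
    hY.1 hnice (hy.mul h'.1.nrm).expandL ?_
  refine Cong.expandL hc.le (Cong.mul hc.le h''.1.nrm h'.1.nrm (Cong.refl hn0 hc.le hy) ?_)
  exact Cong.nrm hc.le h''.1 h'.1
    (h''.cong hM L haux hn0 hc h' (fun _ _ => rfl) hkW)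

end FermatAgent.PSEMI
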