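import Fermat.Agent.PSEMI.Class.Coeff
import Fermat.Agent.PSEMI.Class.Def
import Fermat.Agent.ES.Forms.GalChar

/-!
# Automorphisms of the coefficients acting on classes; commutation with the Atkin involution

An automorphism sends the class of a character to that of its conjugate and commutes with the
Atkin involution on characters.
-/

set_option autoImplicit false

open UpperHalfPlane CongruenceSubgroup
open scoped MatrixGroups ModularForm Manifold

noncomputable section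

namespace FermatAgent.PSEMI

open FermatAgent.ES (IsTwist IsParChar parGroup GoodLevel GalStable GalRel conjChar CPlace HasExp
  HasLExp IsConjTwist mapSer modMat zetaC)
open FermatAgent.BAD (expandL dilFun atkinMat)
open LevelMp (pmLam)

variable {p : ℕ} [hp : Fact p.Prime] {M : ℕ} [NeZero M] {Γ Γ' : Subgroup SL(2, ℤ)}
  {P : CPlace p} {K : Coeffs P} {n : ℕ} {N : ℕ} [NeZero N]

theorem coeffMap_ps (σ : ℂ ≃+* ℂ) (c : PowerSeries ℂ) :
    ModularCurve.coeffMap σ.toRingHom (HahnSeries.ofPowerSeries ℤ ℂ c) =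
      HahnSeries.ofPowerSeries ℤ ℂ (c.map (σ : ℂ →+* ℂ)) :=
  ES.mapSer_ofPowerSeries (σ : ℂ →+* ℂ) c

/-- Coefficient maps commute with expanding. -/
theorem coeffMap_expandL (σ : ℂ →+* ℂ) (q : ℕ) [NeZero q] (s : LaurentSeries ℂ) :
    ModularCurve.coeffMap σ (expandL q s) = expandL q (ModularCurve.coeffMap σ s) :=
  BAD.mapSer_expandL σ s

variable (hM : M.Coprime p) (L : IsLevel p M Γ Γ') (hG : GoodLevel N Γ)

include L hG in
/-- Classes follow the coefficients. -/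
theorem IsClass.conj' {n' : ℕ} [NeZero n'] {σ : ℂ ≃+* ℂ} (habv : ∀ x, P.abv (σ x) = P.abv x)
    (hfine : ∀ s, Fine K s → Fine K (ModularCurve.coeffMap σ.toRingHom s)) (χ : parGroup Γ n')
    {y : LaurentSeries ℂ} (h : IsClass K n (χ : Γ →* ℂˣ) y) :
    IsClass K n (conjChar hG σ χ : Γ →* ℂˣ) (ModularCurve.coeffMap σ.toRingHom y) := by
  obtain ⟨hy, hpar, i, v, s, a, hv, hv0, hs, ha, rfl⟩ := h
  obtain ⟨b, hb, hσb⟩ := ES.exists_unit_exponent (12 * N) σ
  obtain ⟨φ', v', hv', hv'0, hn', hp', hser⟩ := ES.exists_conj_twist (ES.auxLevel12 N)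
    (dvd_mul_left N 12) hG.toGalStable hG.neg_mem hb hσb (NeZero.pos n') χ.2.1 χ.2.2 hv hv0
  have hc := ES.hasExp_twist hG χ.2.2 hv
  have heq : conjChar hG σ χ = ⟨φ', hn', hp'⟩ :=
    ES.conjChar_eq hG ⟨i, v, v', _, hv, hv0, hv', hv'0, hc, hser _ hc⟩
  rw [heq]
  obtain ⟨s', hs'⟩ := exists_series L hp' hv'
  have h1 := BAD.hasLExp_raise (12 * N) hs
  have h1' := BAD.hasLExp_raise (12 * N) hs'
  rw [mul_one] at h1 h1'
  have e1 := h1.series_unique (HasLExp.of_exp hc)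
  have e2 := h1'.series_unique (HasLExp.of_exp (hser _ hc))
  have e : s' = ModularCurve.coeffMap σ.toRingHom s := by
    refine BAD.expandL_injective (12 * N) ?_
    rw [← coeffMap_expandL, e1, e2]
    exact (coeffMap_ps σ _).symm
  refine ⟨hy.coeffMap habv hfine, hp', i, v', s', σ a, hv', hv'0, hs',
    fun h0 => ha (σ.injective (h0.trans (map_zero σ).symm)), ?_⟩
  rw [map_mul, map_pow, e, coeffMap_C']

include L hG in
/-- Classes follow the coefficients, for automorphisms of the coefficients. -/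
theorem IsClass.conj {n' : ℕ} [NeZero n'] {σ : ℂ ≃+* ℂ} (hσ : Keeps K σ) (χ : parGroup Γ n')
    {y : LaurentSeries ℂ} (h : IsClass K n (χ : Γ →* ℂˣ) y) :
    IsClass K n (conjChar hG σ χ : Γ →* ℂˣ) (ModularCurve.coeffMap σ.toRingHom y) :=
  h.conj' L hG hσ.abv hσ.fine χ

/-! ### The group `±(Γ₀(p) ∩ Γ(M))` -/

/-- `±(Γ₀(p) ∩ Γ(M))` is stable under the Galois relations of level `p M`. -/
theorem galStable_pmLam : GalStable (p * M) (pmLam p M) where
  gamma_le γ hγ := Or.inl (BAD.gamma_qM_le hγ)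
  stable a ha γ γ' h := by
    have : NeZero (p * M) := ⟨mul_ne_zero (NeZero.ne p) (NeZero.ne M)⟩
    obtain ⟨a, rfl⟩ : ∃ b : ℕ, a = b := ⟨a.val, (ZMod.natCast_zmod_val a).symm⟩
    have hp' := ES.isUnit_natCast_of_dvd (dvd_mul_right p M) ha
    have hM' := ES.isUnit_natCast_of_dvd (dvd_mul_left M p) ha
    have hlam : ∀ {g g' : SL(2, ℤ)}, GalRel (a : ZMod (p * M)) g g' →
        (g ∈ BAD.lam p M ↔ g' ∈ BAD.lam p M) := fun {g g'} hg => by
      have h1 := (hg.of_dvd (dvd_mul_right p M)).mem_Gamma0 hp'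
      have h2 := (hg.of_dvd (dvd_mul_left M p)).mem_Gamma hM'
      rw [BAD.lam, Subgroup.mem_inf, Subgroup.mem_inf, h1, h2]
    exact or_congr (hlam h) (hlam h.neg)

variable (hdiv : p * M ∣ 12 * N)

include L hdiv in
/-- The conjugate of a form with a character trivial on `±(Γ₀(p) ∩ Γ(M))` is a form on this group,
and follows the coefficients at all cusps. -/
theorem isTwist_pm_conj {χ : Γ →* ℂˣ} (hk : KillsPm p M 1 χ) {σ : ℂ ≃+* ℂ} {b : ℕ}
    (hb : IsUnit (b : ZMod (12 * N))) (hσb : σ (zetaC (12 * N)) = zetaC (12 * N) ^ b) {i : ℕ}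
    {v v' : ℍ → ℂ} {c : PowerSeries ℂ} (hv : IsTwist Γ ((2 * i : ℕ) : ℤ) χ v)
    (hc : HasExp (12 * N) v c) (hc' : HasExp (12 * N) v' (c.map σ.toRingHom)) :
    IsTwist (pmLam p M) ((2 * i : ℕ) : ℤ) 1 v' ∧ ∀ γ γ', GalRel (b : ZMod (12 * N)) γ γ' →
      ∀ s, HasLExp (12 * N) (v ∣[((2 * i : ℕ) : ℤ)] γ) s →
        HasLExp (12 * N) (v' ∣[((2 * i : ℕ) : ℤ)] γ') (mapSer (σ : ℂ →+* ℂ) s) := by
  have : NeZero (p * M) := ⟨mul_ne_zero (NeZero.ne p) (NeZero.ne M)⟩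
  have hvpm : IsTwist (pmLam p M) ((2 * i : ℕ) : ℤ) 1 v :=
    { mdiff := hv.mdiff
      slash := fun γ => by
        rw [hv.slash ⟨γ, L.pm_le γ.2⟩, show χ ⟨γ, L.pm_le γ.2⟩ = 1 by
          simpa using hk ⟨γ, L.pm_le γ.2⟩ γ.2]
        rfl
      bdd := hv.bdd }
  obtain ⟨f', hf', hexp, -⟩ := ES.exists_conj_form (ES.auxLevel12 N) hdiv
    galStable_pmLam hb hσb hvpm
  have h1 := hexp 1 1 (GalRel.one _) _ (by rw [SlashAction.slash_one]; exact HasLExp.of_exp hc)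
  rw [SlashAction.slash_one, ES.mapSer_ofPowerSeries] at h1
  obtain rfl : f' = v' := h1.eq_of_series (HasLExp.of_exp hc')
  exact ⟨hf', hexp⟩

include L hG hdiv in
/-- Triviality on `±(Γ₀(p) ∩ Γ(M))` is preserved. -/
theorem killsPm_conj_one {n' : ℕ} [NeZero n'] (σ : ℂ ≃+* ℂ) (χ : parGroup Γ n')
    (hk : KillsPm p M 1 (χ : Γ →* ℂˣ)) : KillsPm p M 1 (conjChar hG σ χ : Γ →* ℂˣ) := by
  obtain ⟨i, v, v', c, hv, hv0, hv', hv'0, hc, hc'⟩ := ES.conjChar_spec hG σ χ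
  obtain ⟨b, hb, hσb⟩ := ES.exists_unit_exponent (12 * N) σ
  obtain ⟨hf', -⟩ := isTwist_pm_conj L hdiv hk hb hσb hv hc hc'
  intro γ hγ
  rw [pow_one]
  obtain ⟨τ, hτ⟩ := Function.ne_iff.mp hv'0
  have e1 := congrFun (hv'.slash γ) τ
  have e2 := congrFun (hf'.slash ⟨γ, hγ⟩) τ
  simp only [MonoidHom.one_apply, Units.val_one, one_mul] at e2
  refine Units.ext (mul_right_cancel₀ hτ ?_)
  rw [Units.val_one, one_mul]
  exact e1.symm.trans e2

include L hG hdiv in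
/-- Conjugation by an automorphism preserves having exponent `n` on `±(Γ₀(p) ∩ Γ(M))`. -/
theorem killsPm_conj {n' : ℕ} [NeZero n'] (σ : ℂ ≃+* ℂ) (χ : parGroup Γ n')
    (hk : KillsPm p M n (χ : Γ →* ℂˣ)) : KillsPm p M n (conjChar hG σ χ : Γ →* ℂˣ) := by
  have e : conjChar hG σ (χ ^ n) = conjChar hG σ χ ^ n := map_pow (ES.conjAut hG n' σ) χ n
  have h := killsPm_conj_one L hG hdiv σ (χ ^ n)
    (by rw [SubgroupClass.coe_pow]; exact killsPm_pow hk)
  rw [e, SubgroupClass.coe_pow] at h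
  intro γ hγ
  have := h γ hγ
  rwa [pow_one, MonoidHom.pow_apply] at this

/-! ### The Atkin involution commutes -/

/-- The Atkin involution on the characters of exponent `n'`. -/
def wPar (n' : ℕ) (χ : parGroup Γ n') : parGroup Γ n' :=
  ⟨(χ : Γ →* ℂˣ).comp (L.wHom hM), MonoidHom.ext fun γ => by
      have := DFunLike.congr_fun χ.2.1 (L.wHom hM γ)
      rw [MonoidHom.pow_apply] at this ⊢
      exact this,
    L.isParChar_wHom hM χ.2.2⟩

theorem atkin_partner_mul_inv_mem {b : ℕ} (hb : IsUnit (b : ZMod (p * M))) {A' : SL(2, ℤ)}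
    (hr : GalRel (b : ZMod (p * M)) (atkinMat hM) A') :
    A' * (atkinMat hM)⁻¹ ∈ BAD.lam p M := by
  have hp' := ES.isUnit_natCast_of_dvd (dvd_mul_right p M) hb
  have hM' := ES.isUnit_natCast_of_dvd (dvd_mul_left M p) hb
  refine Subgroup.mem_inf.mpr ⟨?_, mul_mem (((hr.of_dvd (dvd_mul_left M p)).mem_Gamma hM').mp
    (BAD.atkinMat_mem hM)) (inv_mem (BAD.atkinMat_mem hM))⟩
  obtain ⟨-, -, -, h11⟩ := (hr.of_dvd (dvd_mul_right p M)).entries
  have hA := (ZMod.intCast_zmod_eq_zero_iff_dvd _ _).mpr (BAD.atkinMat_dvd hM).2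
  rw [hA, zero_mul, hp'.mul_right_eq_zero] at h11
  exact mem_gamma0_of_row (by rw [hA, h11, zero_mul, mul_zero])

include L hG hdiv in
/-- The conjugate of an Atkin transform is proportional to the transform of the conjugate. -/
theorem exists_wForm_conj_exp {n' : ℕ} [NeZero n'] {σ : ℂ ≃+* ℂ} {χ χ' : parGroup Γ n'} {i : ℕ}
    {v v' : ℍ → ℂ} {c : PowerSeries ℂ}
    (hv : IsTwist Γ ((2 * i : ℕ) : ℤ) (χ : Γ →* ℂˣ) v) (hv0 : v ≠ 0)
    (hv' : IsTwist Γ ((2 * i : ℕ) : ℤ) (χ' : Γ →* ℂˣ) v') (hc : HasExp (12 * N) v c)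
    (hc' : HasExp (12 * N) v' (c.map (σ : ℂ →+* ℂ))) :
    ∃ C : ℂ, C ^ n' = 1 ∧ ∃ d : PowerSeries ℂ,
      HasExp (12 * N) (wForm hM ((2 * i : ℕ) : ℤ) v) d ∧
      HasExp (12 * N) (C • wForm hM ((2 * i : ℕ) : ℤ) v') (d.map (σ : ℂ →+* ℂ)) := by
  have : NeZero (p * M) := ⟨mul_ne_zero (NeZero.ne p) (NeZero.ne M)⟩
  set k : ℤ := ((2 * i : ℕ) : ℤ) with hk
  have hΓ12 := ES.gamma12_le hG
  obtain ⟨b, hb, hσb⟩ := ES.exists_unit_exponent (12 * N) σ
  set A := atkinMat hM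
  obtain ⟨A', hr⟩ := GalRel.exists_right hb A
  set C0 := qExpansion ((12 * N : ℕ) : ℝ) (v ∣[k] A)
  have hC0 : HasExp (12 * N) (v ∣[k] A) C0 := ES.hasExp_slash_twist hΓ12 χ.2.2 hv A
  obtain ⟨ω, hω, hω0, hω'⟩ := ES.exists_exp_slash_conj (ES.auxLevel12 N) (dvd_mul_left N 12)
    hG.toGalStable hb hσb (NeZero.pos n') χ.2.1 hv hv0 hv'.mdiff hc hc' hr hC0
  -- back to `A`
  have hmem : A' * A⁻¹ ∈ Γ := L.lam_le (atkin_partner_mul_inv_mem hM
    (ES.isUnit_natCast_of_dvd hdiv hb) (hr.of_dvd hdiv))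
  set r : ℂ := (((χ' : Γ →* ℂˣ) ⟨_, hmem⟩ : ℂˣ) : ℂ) with hr'
  have hrn : r ^ n' = 1 := by
    rw [hr', ← Units.val_pow_eq_pow_val, ← MonoidHom.pow_apply, χ'.2.1]; rfl
  have hA' : v' ∣[k] A' = r • (v' ∣[k] A) := by
    conv_lhs => rw [← inv_mul_cancel_right A' A, SlashAction.slash_mul, hv'.slash ⟨_, hmem⟩]
    exact ModularForm.SL_smul_slash k A v' r
  -- the conjugate of the Atkin transform
  have hu' := (L.isTwist_wForm hM hv').smul (ω⁻¹ * r)
  have hd := ES.hasExp_twist hG (L.isParChar_wHom hM χ.2.2) (L.isTwist_wForm hM hv)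
  have hd' := ES.hasExp_twist hG (L.isParChar_wHom hM χ'.2.2) hu'
  set d := qExpansion ((12 * N : ℕ) : ℝ) (wForm hM k v)
  set d' := qExpansion ((12 * N : ℕ) : ℝ) ((ω⁻¹ * r) • wForm hM k v')
  refine ⟨ω⁻¹ * r, by rw [mul_pow, inv_pow, hω, inv_one, one_mul, hrn], d, hd, ?_⟩
  suffices e : d' = d.map (σ : ℂ →+* ℂ) by rw [← e]; exact hd'
  refine HahnSeries.ofPowerSeries_injective (Γ := ℤ) ?_
  have e4 := (HasLExp.of_exp hd).series_unique (BAD.hasLExp_dilFun p (HasLExp.of_exp hC0))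
  rw [hA'] at hω'
  have h5 : HasLExp (12 * N) ((ω⁻¹ * r) • wForm hM k v')
      (HahnSeries.C ω⁻¹ * expandL p (HahnSeries.ofPowerSeries ℤ ℂ
        (PowerSeries.C ω * C0.map (σ : ℂ →+* ℂ)))) := by
    refine ((HasLExp.const ω⁻¹).mul (BAD.hasLExp_dilFun p (HasLExp.of_exp hω'))).congr_fun
      fun τ => ?_
    simp [wForm, A, BAD.dilFun_apply, mul_assoc]
  rw [(HasLExp.of_exp hd').series_unique h5, ← coeffMap_ps, e4, coeffMap_expandL,
    coeffMap_ps, map_mul, HahnSeries.ofPowerSeries_C, map_mul, ← mul_assoc]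
  rw [show expandL p (HahnSeries.C ω : LaurentSeries ℂ) = HahnSeries.C ω by
      rw [HahnSeries.C_apply, BAD.expandL_single, mul_zero], ← map_mul, inv_mul_cancel₀ hω0,
    map_one, one_mul]

include hdiv in
/-- **The action of automorphisms commutes with the Atkin involution.** -/
theorem conjChar_wPar {n' : ℕ} [NeZero n'] (σ : ℂ ≃+* ℂ) (χ : parGroup Γ n') :
    conjChar hG σ (wPar hM L n' χ) = wPar hM L n' (conjChar hG σ χ) := by
  obtain ⟨i, v, v', c, hv, hv0, hv', -, hc, hc'⟩ := ES.conjChar_spec hG σ χ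
  obtain ⟨C, -, d, hd, hd'⟩ := exists_wForm_conj_exp hM L hG hdiv hv hv0 hv' hc hc'
  exact ES.conjChar_eq hG (IsConjTwist.mk_of (L.isTwist_wForm hM hv) (wForm_ne_zero hM hv0)
    ((L.isTwist_wForm hM hv').smul C) hd hd')

end FermatAgent.PSEMI
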