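import Fermat.Agent.PSEMI.LevelMp.Cusps
import Fermat.Agent.ES.Cong.Transfer
import Fermat.Prelude.Def_ModularForm_HeckeOperator

/-!
# Groups at level `p`, the Atkin transform of forms with multiplier, and the key identity

For a form `x` with multiplier on `Γ = Γ' ∩ Γ₀(p)` the product of the translates of `x` over the
cosets of `Γ` in `Γ'` is fixed up to a constant by the Atkin matrix. In terms of `x` and of its
Atkin transform `z` this product is `x · ∏ j, z ((τ + j) / p)`.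
-/

set_option autoImplicit false

open UpperHalfPlane CongruenceSubgroup
open scoped MatrixGroups ModularForm Manifold

noncomputable section

namespace FermatAgent.PSEMI

open FermatAgent.ES (IsTwist IsParChar charOp transferFun)
open FermatAgent.BAD (dilFun dilPt atkinMat)
open FermatAgent.Period (TransferData)
open ModularForm (heckeMatrix heckeDiagMatrix val_heckeMatrix val_heckeDiagMatrix)
open LevelMp (dilHom dilPt_smul pmLam)

variable {p : ℕ} [hp : Fact p.Prime] {M : ℕ} [NeZero M] (hM : M.Coprime p)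
  {Γ Γ' : Subgroup SL(2, ℤ)}

/-- `Γ = Γ' ∩ Γ₀(p)` with `Γ'` containing `Γ(M)` and stable under conjugation by `diag(p, 1)`. -/
structure IsLevel (p M : ℕ) [Fact p.Prime] (Γ Γ' : Subgroup SL(2, ℤ)) : Prop where
  mem_iff : ∀ γ, γ ∈ Γ ↔ γ ∈ Γ' ∧ γ ∈ Gamma0 p
  gamma_le : Gamma M ≤ Γ'
  T_mem : ModularGroup.T ∈ Γ'
  neg_mem : -1 ∈ Γ'
  dil_iff : ∀ γ : Gamma0 p, dilHom p γ ∈ Γ' ↔ (γ : SL(2, ℤ)) ∈ Γ'

/-- `Γ₀(p M₀) = Γ₀(M₀) ∩ Γ₀(p)` is a level for `M₀` prime to `p` dividing `M`. -/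
theorem isLevel_Gamma0 {M0 M : ℕ} (h0 : M0.Coprime p) (hdvd : M0 ∣ M) :
    IsLevel p M (Gamma0 (p * M0)) (Gamma0 M0) where
  mem_iff γ := by
    simp only [Gamma0_mem, ZMod.intCast_zmod_eq_zero_iff_dvd]
    constructor
    · intro h
      exact ⟨(Int.natCast_dvd_natCast.mpr (dvd_mul_left _ _)).trans h,
        (Int.natCast_dvd_natCast.mpr (dvd_mul_right _ _)).trans h⟩
    · rintro ⟨h1, h2⟩
      rw [Nat.cast_mul]
      exact IsCoprime.mul_dvd (Int.isCoprime_iff_nat_coprime.mpr (by simpa using h0.symm)) h2 h1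
  gamma_le γ hγ := by
    rw [Gamma_mem] at hγ
    rw [Gamma0_mem]
    have := congrArg (ZMod.castHom hdvd (ZMod M0)) hγ.2.2.1
    simpa using this
  T_mem := by simp [Gamma0_mem, ModularGroup.coe_T]
  neg_mem := by simp [Gamma0_mem]
  dil_iff γ := by
    obtain ⟨c, hc⟩ := BAD.mem_Gamma0_dvd.mp γ.2
    have e : (LevelMp.dilHom p γ) 1 0 = c := by
      simp [hc, hp.out.ne_zero]
    rw [Gamma0_mem, Gamma0_mem, e, hc, ZMod.intCast_zmod_eq_zero_iff_dvd,
      ZMod.intCast_zmod_eq_zero_iff_dvd]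
    exact ⟨fun h => h.mul_left _, fun h =>
      (Int.isCoprime_iff_nat_coprime.mpr (by simpa using h0)).dvd_of_dvd_mul_left h⟩

/-- Moving `diag(p, 1)` across an element of `Γ₀(p)` replaces it by its dilation. -/
theorem dilDiag_mul (γ : Gamma0 p) :
    heckeDiagMatrix p * ((γ : SL(2, ℤ)) : GL (Fin 2) ℝ) =
      ((dilHom p γ : SL(2, ℤ)) : GL (Fin 2) ℝ) * heckeDiagMatrix p := by
  obtain ⟨c, hc⟩ := BAD.mem_Gamma0_dvd.mp γ.2
  refine Units.ext (Matrix.ext fun i j => ?_)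
  simp only [Units.val_mul, val_heckeDiagMatrix (NeZero.ne p)]
  fin_cases i <;> fin_cases j <;>
    simp [Matrix.mul_apply, Fin.sum_univ_two, hc, NeZero.ne p, mul_comm]

theorem dilDiag_mul_heckeMatrix (x : ℕ) :
    heckeDiagMatrix p * heckeMatrix p x =
      ((ModularGroup.T ^ x : SL(2, ℤ)) : GL (Fin 2) ℝ) * (heckeDiagMatrix p * heckeMatrix p 0) := by
  refine Units.ext (Matrix.ext fun i j => ?_)
  have hT : ∀ a b,
      (((ModularGroup.T ^ x : SL(2, ℤ)) : GL (Fin 2) ℝ) : Matrix (Fin 2) (Fin 2) ℝ) a b =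
      ((!![1, (x : ℤ); 0, 1] a b : ℤ) : ℝ) := fun a b => by
    rw [← ES.T_pow_coe x]; rfl
  simp only [Units.val_mul, val_heckeDiagMatrix (NeZero.ne p), val_heckeMatrix (NeZero.ne p),
    Matrix.mul_apply, Fin.sum_univ_two, hT]
  fin_cases i <;> fin_cases j <;> simp [mul_comm]

theorem dilDiag_comm (g : GL (Fin 2) ℝ) :
    g * (heckeDiagMatrix p * heckeMatrix p 0) = (heckeDiagMatrix p * heckeMatrix p 0) * g := by
  refine Units.ext (Matrix.ext fun i j => ?_)
  simp only [Units.val_mul, val_heckeDiagMatrix (NeZero.ne p), val_heckeMatrix (NeZero.ne p)]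
  fin_cases i <;> fin_cases j <;>
    simp [Matrix.mul_apply, Fin.sum_univ_two, mul_comm]

/-- Moving `γ` across `(1 x; 0 p)`, seen through `diag(p, 1)`. -/
theorem dilHom_of_hecke_mul {x x' : ℕ} {γ : SL(2, ℤ)} {g : Gamma0 p}
    (h : heckeMatrix p x * ((γ : SL(2, ℤ)) : GL (Fin 2) ℝ) =
      ((g : SL(2, ℤ)) : GL (Fin 2) ℝ) * heckeMatrix p x') :
    dilHom p g = ModularGroup.T ^ x * γ * (ModularGroup.T ^ x')⁻¹ := by
  refine eq_mul_inv_of_mul_eq (Matrix.SpecialLinearGroup.mapGL_injective (S := ℝ) (R := ℤ) ?_)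
  rw [map_mul, map_mul]
  refine mul_right_cancel (b := heckeDiagMatrix p * heckeMatrix p 0) ?_
  set D := heckeDiagMatrix p
  set Z := D * heckeMatrix p 0
  have h1 : D * (heckeMatrix p x * ((γ : SL(2, ℤ)) : GL (Fin 2) ℝ)) =
      D * (((g : SL(2, ℤ)) : GL (Fin 2) ℝ) * heckeMatrix p x') := congrArg (fun X => D * X) h
  rw [← mul_assoc, ← mul_assoc D, dilDiag_mul_heckeMatrix x, dilDiag_mul g,
    mul_assoc _ Z ((γ : SL(2, ℤ)) : GL (Fin 2) ℝ), ← dilDiag_comm, ← mul_assoc,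
    mul_assoc _ (heckeDiagMatrix p) (heckeMatrix p x'),
    dilDiag_mul_heckeMatrix x', ← mul_assoc] at h1
  simp only [Z, D, mul_assoc] at h1 ⊢
  exact h1.symm

namespace IsLevel

variable (L : IsLevel p M Γ Γ')
include L

section

omit [NeZero M]

/-- `Γ ≤ Γ'`. -/
theorem le : Γ ≤ Γ' := fun γ hγ => ((L.mem_iff γ).mp hγ).1

/-- `Γ ≤ Γ₀(p)`. -/
theorem le_gamma0 : Γ ≤ Gamma0 p := fun γ hγ => ((L.mem_iff γ).mp hγ).2

/-- `Γ₀(p) ∩ Γ(M) ≤ Γ`. -/
theorem lam_le : BAD.lam p M ≤ Γ := fun γ hγ => (L.mem_iff γ).mpr ⟨L.gamma_le hγ.2, hγ.1⟩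

/-- `-1 ∈ Γ`. -/
theorem neg_one_mem : -1 ∈ Γ := (L.mem_iff _).mpr ⟨L.neg_mem, by simp [Gamma0_mem]⟩

/-- `±(Γ₀(p) ∩ Γ(M)) ≤ Γ`. -/
theorem pm_le : pmLam p M ≤ Γ := fun γ hγ => by
  rcases hγ with h | h
  · exact L.lam_le h
  · have := mul_mem L.neg_one_mem (L.lam_le h)
    simpa using this

/-- `T ∈ Γ`. -/
theorem T_mem' : ModularGroup.T ∈ Γ :=
  (L.mem_iff _).mpr ⟨L.T_mem, by simp [Gamma0_mem, ModularGroup.coe_T]⟩

/-- `Γ(p M) ≤ Γ`. -/
theorem gamma_qM_le : Gamma (p * M) ≤ Γ := fun _ h => L.lam_le (BAD.gamma_qM_le h)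

end

/-- The element `γ` of `Γ` as an element of `Γ₀(p)`. -/
def toG0 : Γ →* Gamma0 p := Subgroup.inclusion L.le_gamma0

include hM

/-- The Atkin matrix lies in `Γ'`. -/
theorem atkin_mem' : atkinMat hM ∈ Γ' := L.gamma_le (BAD.atkinMat_mem hM)

theorem wMat_mem (γ : Γ) :
    atkinMat hM * dilHom p (L.toG0 γ) * (atkinMat hM)⁻¹ ∈ Γ := by
  refine (L.mem_iff _).mpr ⟨mul_mem (mul_mem (L.atkin_mem' hM)
    ((L.dil_iff _).mpr (L.le γ.2))) (inv_mem (L.atkin_mem' hM)), ?_⟩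
  have hA := (ZMod.intCast_zmod_eq_zero_iff_dvd _ _).mpr (BAD.atkinMat_dvd hM).2
  have h01 := (ZMod.intCast_zmod_eq_zero_iff_dvd _ _).mpr
    (LevelMp.dvd_dilHom (p := p) (L.toG0 γ))
  obtain ⟨e00, -, e10, -⟩ := LevelMp.inv_entries (atkinMat hM)
  rw [Gamma0_mem, LevelMp.entry_mul, LevelMp.entry_mul, LevelMp.entry_mul, e00, e10]
  push_cast
  rw [hA, h01]
  ring

/-- The Atkin involution on the group. -/
def wHom : Γ →* Γ where
  toFun γ := ⟨_, L.wMat_mem hM γ⟩
  map_one' := Subtype.ext (by simp [map_one])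
  map_mul' γ δ := Subtype.ext (by simp only [map_mul, Subgroup.coe_mul]; group)

/-- The Atkin involution is dilation followed by conjugation with the Atkin matrix. -/
theorem coe_wHom (γ : Γ) :
    (L.wHom hM γ : SL(2, ℤ)) = atkinMat hM * dilHom p (L.toG0 γ) * (atkinMat hM)⁻¹ := rfl

/-- The Atkin involution preserves parabolic characters. -/
theorem isParChar_wHom {χ : Γ →* ℂˣ} (hχ : IsParChar Γ χ) :
    IsParChar Γ (χ.comp (L.wHom hM)) := by
  intro γ hγ
  refine hχ _ ?_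
  rw [L.coe_wHom hM, Matrix.SpecialLinearGroup.coe_mul, Matrix.SpecialLinearGroup.coe_mul,
    Matrix.trace_mul_cycle, ← Matrix.SpecialLinearGroup.coe_mul, inv_mul_cancel,
    Matrix.SpecialLinearGroup.coe_one, one_mul, Matrix.trace_fin_two]
  rw [Matrix.trace_fin_two] at hγ
  exact hγ

end IsLevel

/-- The Atkin transform of a form. -/
def wForm (k : ℤ) (v : ℍ → ℂ) : ℍ → ℂ := dilFun p (v ∣[k] atkinMat hM)

/-- Atkin transforms are multiplicative in the form. -/
theorem wForm_mul (k l : ℤ) (v w : ℍ → ℂ) :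
    wForm hM (k + l) (v * w) = wForm hM k v * wForm hM l w := by
  rw [wForm, ModularForm.mul_slash_SL2, map_mul]; rfl

/-- Dilation by `p` is the slash by `diag(p, 1)` up to the power `p ^ (k - 1)`. -/
theorem dilFun_eq_slash (k : ℤ) (f : ℍ → ℂ) :
    dilFun p f = ((p : ℂ) ^ (k - 1))⁻¹ • (f ∣[k] heckeDiagMatrix p) := by
  funext τ
  rw [Pi.smul_apply, ModularForm.slash_heckeDiagMatrix_apply k (NeZero.ne p), smul_eq_mul,
    inv_mul_cancel_left₀ (zpow_ne_zero _ (Nat.cast_ne_zero.mpr (NeZero.ne p))), BAD.dilFun_apply]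
  congr 1
  exact UpperHalfPlane.ext (by
    rw [BAD.coe_dilPt, ModularForm.coe_heckeDiagMatrix_smul (NeZero.ne p)])

/-- The Atkin transform of a nonzero form is nonzero. -/
theorem wForm_ne_zero {k : ℤ} {v : ℍ → ℂ} (hv : v ≠ 0) : wForm hM k v ≠ 0 := fun h => by
  have h1 : v ∣[k] atkinMat hM = 0 := BAD.dilFun_injective p (by rw [map_zero]; exact h)
  exact ES.slash_ne_zero _ hv h1

/-- **The Atkin transform has the conjugate multiplier.** -/
theorem IsLevel.isTwist_wForm (L : IsLevel p M Γ Γ') {k : ℤ} {χ : Γ →* ℂˣ} {v : ℍ → ℂ}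
    (hv : IsTwist Γ k χ v) : IsTwist Γ k (χ.comp (L.wHom hM)) (wForm hM k v) where
  mdiff := by
    rw [wForm, dilFun_eq_slash k]
    exact ((hv.mdiff.slash k _).slash k _).const_smul _
  slash γ := by
    rw [wForm, dilFun_eq_slash k, ModularForm.SL_smul_slash]
    have e : atkinMat hM * dilHom p (L.toG0 γ) =
        (L.wHom hM γ : SL(2, ℤ)) * atkinMat hM := by rw [L.coe_wHom hM]; group
    have key : ((v ∣[k] atkinMat hM) ∣[k] heckeDiagMatrix p) ∣[k] (γ : SL(2, ℤ)) =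
        ((χ (L.wHom hM γ) : ℂˣ) : ℂ) • ((v ∣[k] atkinMat hM) ∣[k] heckeDiagMatrix p) := by
      rw [ModularForm.SL_slash (f := (v ∣[k] atkinMat hM) ∣[k] heckeDiagMatrix p),
        ← SlashAction.slash_mul,
        show ((γ : SL(2, ℤ)) : GL (Fin 2) ℝ) = (((L.toG0 γ : Gamma0 p) : SL(2, ℤ)) : GL (Fin 2) ℝ)
          from rfl, dilDiag_mul, SlashAction.slash_mul, ← ModularForm.SL_slash,
        ← SlashAction.slash_mul, e, SlashAction.slash_mul, hv.slash (L.wHom hM γ),
        show (fun τ => ((χ (L.wHom hM γ) : ℂˣ) : ℂ) * v τ) =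
          ((χ (L.wHom hM γ) : ℂˣ) : ℂ) • v from rfl, ModularForm.SL_smul_slash,
        ModularForm.smul_slash]
      simp [ModularForm.σ_heckeDiagMatrix]
    rw [key, smul_comm]
    rfl
  bdd γ := by
    rw [wForm, dilFun_eq_slash k, ModularForm.SL_smul_slash]
    refine Filter.BoundedAtFilter.smul _ ?_
    rw [ModularForm.SL_slash (f := v), ← SlashAction.slash_mul, ModularForm.SL_slash,
      ← SlashAction.slash_mul]
    refine hv.bdd_of_int _ fun a b => ?_
    refine ⟨(atkinMat hM a 0 * p) * γ 0 b + atkinMat hM a 1 * γ 1 b, ?_⟩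
    simp [Units.val_mul, Matrix.mul_apply, Fin.sum_univ_two, val_heckeDiagMatrix (NeZero.ne p)]

/-! ### The key identity -/

/-- The representatives of `Γ` in `Γ'`. -/
def cosetMat (o : Option (ZMod p)) : SL(2, ℤ) :=
  o.elim 1 fun j => atkinMat hM * ModularGroup.T ^ j.val

open Classical in
/-- The permutation induced by the Atkin matrix. -/
def atkinInv (o : Option (ZMod p)) : Option (ZMod p) :=
  o.elim (some 0) fun j =>
    if j = 0 then none else some (-((((atkinMat hM 1 0 : ℤ) : ZMod p) ^ 2 * j)⁻¹))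

theorem atkinC_ne : ((atkinMat hM 1 0 : ℤ) : ZMod p) ≠ 0 := fun h =>
  BAD.atkinMat_not_dvd hM ((ZMod.intCast_zmod_eq_zero_iff_dvd _ _).mp h)

theorem atkinInv_involutive : Function.Involutive (atkinInv hM) := by
  have hc := atkinC_ne hM
  rintro (_ | j)
  · simp [atkinInv]
  · by_cases hj : j = 0
    · simp [atkinInv, hj]
    · simp only [atkinInv, Option.elim_some, if_neg hj]
      rw [if_neg (neg_ne_zero.mpr (inv_ne_zero (mul_ne_zero (pow_ne_zero _ hc) hj)))]
      congr 1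
      field_simp

/-- Matrices with proportional bottom rows modulo `p` lie in one coset of `Γ₀(p)`. -/
theorem mem_gamma0_of_row {x y : SL(2, ℤ)}
    (h : ((x 1 0 : ℤ) : ZMod p) * (y 1 1 : ℤ) = (x 1 1 : ℤ) * (y 1 0 : ℤ)) :
    x * y⁻¹ ∈ Gamma0 p := by
  obtain ⟨e00, -, e10, -⟩ := LevelMp.inv_entries y
  rw [Gamma0_mem, LevelMp.entry_mul, e00, e10]
  push_cast
  linear_combination h

theorem cosetMat_mem (L : IsLevel p M Γ Γ') (o : Option (ZMod p)) : cosetMat hM o ∈ Γ' := by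
  cases o with
  | none => exact one_mem _
  | some j => exact mul_mem (L.atkin_mem' hM) (pow_mem L.T_mem _)

theorem coset_atkin_mem (L : IsLevel p M Γ Γ') (o : Option (ZMod p)) :
    cosetMat hM o * atkinMat hM * (cosetMat hM (atkinInv hM o))⁻¹ ∈ Γ := by
  refine (L.mem_iff _).mpr ⟨mul_mem (mul_mem (cosetMat_mem hM L o) (L.atkin_mem' hM))
    (inv_mem (cosetMat_mem hM L _)), mem_gamma0_of_row ?_⟩
  have hc := atkinC_ne hM
  have ha := (ZMod.intCast_zmod_eq_zero_iff_dvd _ _).mpr (BAD.atkinMat_dvd hM).1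
  have hd := (ZMod.intCast_zmod_eq_zero_iff_dvd _ _).mpr (BAD.atkinMat_dvd hM).2
  have hdet := congrArg (Int.cast : ℤ → ZMod p)
    ((Matrix.det_fin_two (atkinMat hM : Matrix (Fin 2) (Fin 2) ℤ)).symm.trans (atkinMat hM).2)
  push_cast at hdet
  rw [ha, hd] at hdet
  cases o with
  | none => simp [cosetMat, atkinInv, hd]
  | some j =>
    by_cases hj : j = 0
    · simp [cosetMat, atkinInv, hj, LevelMp.entry_mul, ha, hd]
    · simp only [cosetMat, atkinInv, Option.elim_some, if_neg hj]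
      simp [LevelMp.entry_mul, ES.T_pow_coe, ha, hd, -Matrix.SpecialLinearGroup.coe_pow]
      field_simp
      linear_combination hdet

theorem slash_cosetMat_some (k : ℤ) (x : ℍ → ℂ) (j : ZMod p) :
    x ∣[k] cosetMat hM (some j) = (p : ℂ) • (wForm hM k x ∣[k] heckeMatrix p j.val) := by
  funext τ
  have hT : ((x ∣[k] atkinMat hM) ∣[k] (ModularGroup.T ^ ((j.val : ℕ) : ℤ))) τ =
      (x ∣[k] atkinMat hM) ((((j.val : ℕ) : ℤ) : ℝ) +ᵥ τ) :=
    congrFun (ES.slash_T_zpow _ k _) τ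
  rw [zpow_natCast] at hT
  rw [show cosetMat hM (some j) = atkinMat hM * ModularGroup.T ^ j.val from rfl,
    SlashAction.slash_mul, hT, Pi.smul_apply,
    ModularForm.slash_heckeMatrix_apply k (NeZero.ne p), smul_eq_mul,
    mul_inv_cancel_left₀ (Nat.cast_ne_zero.mpr (NeZero.ne p)), wForm, BAD.dilFun_apply]
  refine congrArg (x ∣[k] atkinMat hM) (UpperHalfPlane.ext ?_)
  rw [UpperHalfPlane.coe_vadd, BAD.coe_dilPt, ModularForm.coe_heckeMatrix_smul (NeZero.ne p),
    mul_div_cancel₀ _ (Nat.cast_ne_zero.mpr (NeZero.ne p))]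
  push_cast
  ring

/-- The product of the translates. -/
theorem prod_cosetMat (k : ℤ) (x : ℍ → ℂ) (D : TransferData Γ (ZMod p))
    (hD : ∀ j : ZMod p, D.rep j = heckeMatrix p j.val) :
    ∏ o, x ∣[k] cosetMat hM o =
      ((p : ℂ) ^ p) • (x * transferFun D k (wForm hM k x)) := by
  rw [Fintype.prod_option, transferFun]
  simp only [slash_cosetMat_some, hD]
  funext τ
  simp only [Pi.mul_apply, Pi.smul_apply, smul_eq_mul, Finset.prod_apply, Finset.prod_mul_distrib,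
    Finset.prod_const, Finset.card_univ, ZMod.card, cosetMat, Option.elim_none,
    SlashAction.slash_one]
  ring

/-- **The key identity.** -/
theorem exists_wForm_key (L : IsLevel p M Γ Γ') (D : TransferData Γ (ZMod p))
    (hD : ∀ j : ZMod p, D.rep j = heckeMatrix p j.val) {k : ℤ} {χ : Γ →* ℂˣ} {x : ℍ → ℂ}
    (hx : IsTwist Γ k χ x) :
    ∃ c : ℂ, c ≠ 0 ∧ wForm hM (k + k * p) (x * transferFun D k (wForm hM k x)) =
      c • dilFun p (x * transferFun D k (wForm hM k x)) := by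
  set A := atkinMat hM
  set P := x * transferFun D k (wForm hM k x)
  set π : Equiv.Perm (Option (ZMod p)) := (atkinInv_involutive hM).toPerm
  set g : Option (ZMod p) → Γ :=
    fun o => ⟨_, coset_atkin_mem hM L o⟩
  have hslash : ∀ o, (x ∣[k] cosetMat hM o) ∣[k] A =
      (χ (g o) : ℂ) • (x ∣[k] cosetMat hM (π o)) := by
    intro o
    rw [← SlashAction.slash_mul,
      show cosetMat hM o * A = (g o : SL(2, ℤ)) * cosetMat hM (π o) from
        (inv_mul_cancel_right _ _).symm, SlashAction.slash_mul, hx.slash (g o),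
      show (fun τ => (χ (g o) : ℂ) * x τ) = (χ (g o) : ℂ) • x from rfl, ModularForm.SL_smul_slash]
  have hkp : k + k * p = k * Fintype.card (Option (ZMod p)) := by
    rw [Fintype.card_option, ZMod.card]; push_cast; ring
  have hp0 : ((p : ℂ) ^ p) ≠ 0 := pow_ne_zero _ (Nat.cast_ne_zero.mpr (NeZero.ne p))
  refine ⟨∏ o, (χ (g o) : ℂ), Finset.prod_ne_zero_iff.mpr fun o _ => (χ (g o)).ne_zero, ?_⟩
  have e : P ∣[k + k * p] A = (∏ o, (χ (g o) : ℂ)) • P := by
    have h := congrArg (fun f : ℍ → ℂ => f ∣[k + k * (p : ℤ)] A) (prod_cosetMat hM k x D hD)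
    rw [ModularForm.SL_smul_slash, hkp, ES.prod_slash_int, ← hkp] at h
    simp only [hslash] at h
    funext τ
    have hτ := congrFun h τ
    simp only [Finset.prod_apply, Pi.smul_apply, smul_eq_mul, Finset.prod_mul_distrib] at hτ
    rw [Equiv.prod_comp π fun o => (x ∣[k] cosetMat hM o) τ] at hτ
    have h0 := congrFun (prod_cosetMat hM k x D hD) τ
    simp only [Finset.prod_apply, Pi.smul_apply, smul_eq_mul] at h0
    rw [h0] at hτ
    refine mul_left_cancel₀ hp0 ?_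
    rw [← hτ, Pi.smul_apply, smul_eq_mul]
    ring
  rw [wForm, e]
  funext τ
  rfl

end FermatAgent.PSEMI
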