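import Fermat.Agent.PSEMI.Series.Kill
import Fermat.Agent.BAD.GaloisAut

/-!
# Coefficient rings stable under inertia
-/

set_option autoImplicit false

open Polynomial IsLocalRing

noncomputable section

namespace FermatAgent.PSEMI

open FermatAgent.ES (CPlace GQ embC zetaC)
open FermatAgent.Curve.Red
open FermatAgent.BAD (stableRing conjC conjC_mem_stableRing isCDVR_stableRing)
open ModularCurve (coeffMap coeffMap_coeff)

variable {p : ℕ} [hp : Fact p.Prime]

/-- The stable ring grows with the set it is built from. -/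
theorem stableRing_mono (Φ : ℂ ≃+* PadicAlgCl p) : Monotone (stableRing Φ) := fun _ _ h =>
  ES.padicSubring_mono Φ (Set.image_mono (Set.biUnion_subset_biUnion_left h))

theorem resField_fixed (Φ : ℂ ≃+* PadicAlgCl p) (x : ResField (CPlace.ofEquiv Φ)) :
    ∃ n, 0 < n ∧ x ^ p ^ n = x := by
  obtain ⟨z, rfl⟩ := Ideal.Quotient.mk_surjective x
  set S : Set ℂ := {(z : ℂ)}
  have hS : S.Finite := Set.finite_singleton _
  have hO := isCDVR_stableRing Φ hS
  have := hO.dvr
  have := BAD.finite_residueField_stableRing Φ hS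
  set k := ResidueField (stableRing Φ S)
  have := Fintype.ofFinite k
  have : CharP k p := (CharP.charP_iff_prime_eq_zero hp.out).mpr (by
    rw [← map_natCast (residue (stableRing Φ S)), residue_eq_zero_iff, hO.mem_maximalIdeal_iff,
      SubringClass.coe_natCast]
    exact (CPlace.ofEquiv Φ).lt_one)
  obtain ⟨n, -, hn⟩ := FiniteField.card k p
  refine ⟨n, n.pos, ?_⟩
  set z' : stableRing Φ S := ⟨z, BAD.mem_stableRing Φ (Set.mem_singleton _) z.2⟩
  have h := FiniteField.pow_card (residue (stableRing Φ S) z')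
  rw [hn, ← map_pow, ← sub_eq_zero, ← map_sub, residue_eq_zero_iff, hO.mem_maximalIdeal_iff] at h
  rw [← map_pow, ← sub_eq_zero, ← map_sub]
  exact rd_eq_zero_iff.mpr (by simpa [z'] using h)

/-- The coefficient rings generated by finite sets and their conjugates. -/
def stableCoeffs (Φ : ℂ ≃+* PadicAlgCl p) : Coeffs (CPlace.ofEquiv Φ) where
  R := stableRing Φ
  mono := stableRing_mono Φ
  spec _ hS hle := ⟨isCDVR_stableRing Φ hS, fun _ hz => BAD.mem_stableRing Φ hz (hle hz)⟩
  resFix := resField_fixed Φ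

variable {P : CPlace p}

/-- Inertia elements act on the coefficients. -/
theorem exists_keeps (Φ : ℂ ≃+* PadicAlgCl p) {g : GQ}
    (hg : g ∈ (CPlace.ofEquiv Φ).algVal.inertiaSubgroupIn ℚ) :
    ∃ σ : ℂ ≃+* ℂ, (∀ x, σ (embC x) = embC (g x)) ∧ Keeps (stableCoeffs Φ) σ := by
  obtain ⟨s, hs, hres⟩ := BAD.exists_inertiaAut Φ hg
  refine ⟨conjC Φ s, BAD.conjC_embC Φ s hs, BAD.abv_conjC Φ s, fun x hx => ?_, ?_⟩
  · rw [CPlace.ofEquiv_abv, map_sub, BAD.map_conjC]
    exact hres _ hx
  · rintro y ⟨S, hS, hy⟩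
    refine ⟨S, hS, fun k => ?_⟩
    rw [coeffMap_coeff]
    exact conjC_mem_stableRing Φ s (hy k)

variable {K : Coeffs P} {σ : ℂ ≃+* ℂ}

/-- A kept coefficient automorphism raising `ζ_p` to an exponent `≢ 1` moves coefficients. -/
theorem Keeps.moves_of (h : Keeps K σ) {w : ℕ} (hw : σ (zp p) = zp p ^ w)
    (hw1 : (w : ZMod p) ≠ 1) : Mover K σ where
  __ := h
  moves w' hw' h1 := by
    have hz0 : zp p ≠ 0 := (zp_spec (p := p)).ne_zero hp.out.ne_zero
    have hd := ((zp_spec (p := p)).zpow_eq_one_iff_dvd ((w' : ℤ) - w)).mp (by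
      rw [zpow_sub₀ hz0, zpow_natCast, zpow_natCast, ← hw', hw, div_self (pow_ne_zero _ hz0)])
    have hmod : (w' : ZMod p) = w := by
      rw [← ZMod.intCast_zmod_eq_zero_iff_dvd] at hd
      push_cast at hd
      exact sub_eq_zero.mp hd
    apply hw1
    rw [← hmod]
    have := (CharP.intCast_eq_zero_iff (ResField P) p ((w' : ℤ) - 1)).mp
      (by push_cast; rw [h1, sub_self])
    rw [← ZMod.intCast_zmod_eq_zero_iff_dvd] at this
    push_cast at this
    exact sub_eq_zero.mp this

end FermatAgent.PSEMI
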