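import Fermat.Agent.PSEMI.Class.Link

/-!
# Automorphisms fixing `ζ_M` on the model, and the invariance criterion

If the classes of a character at both cusps over `∞` are near `p`-th powers, an automorphism
multiplies it by the cyclotomic exponent; so a fixed one is trivial when the exponent is not `1`.
-/

set_option autoImplicit false

open UpperHalfPlane CongruenceSubgroup
open scoped MatrixGroups ModularForm Manifold

noncomputable section

namespace FermatAgent.PSEMI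

open FermatAgent.ES (IsTwist IsParChar parGroup GoodLevel GalRel conjChar CPlace
  HasExp HasLExp mapSer modMat zetaC AuxLevel act lexp BSub conjHom vanishOrd)
open FermatAgent.BAD (expandL atkinMat)
open LevelMp (pmLam CI repI repO model)

variable {p : ℕ} [hp : Fact p.Prime] {M : ℕ} [NeZero M] {Γ Γ' : Subgroup SL(2, ℤ)}
  {P : CPlace p} {K : Coeffs P} {N : ℕ} [NeZero N] {σ : ℂ ≃+* ℂ} {b : ℕ}
  (hM : M.Coprime p) (hdiv : p * M ∣ 12 * N)

omit hp in
include hdiv in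
theorem exists_zetaC_eq_pow : ∃ r : ℕ, zetaC M = zetaC (12 * N) ^ r := by
  obtain ⟨r, hr⟩ := (dvd_mul_left M p).trans hdiv
  have hr0 : (r : ℂ) ≠ 0 := Nat.cast_ne_zero.mpr fun h =>
    NeZero.ne (12 * N) (by rw [hr, h, mul_zero])
  refine ⟨r, ?_⟩
  rw [ES.zetaC, ES.zetaC, ← Complex.exp_nat_mul, hr]
  congr 1
  have : (M : ℂ) ≠ 0 := Nat.cast_ne_zero.mpr (NeZero.ne M)
  push_cast
  field_simp

omit hp in
include hdiv in
theorem natCast_eq_one_of_fix (hσ : σ (zetaC (12 * N)) = zetaC (12 * N) ^ b)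
    (hσM : σ (zetaC M) = zetaC M) : (b : ZMod M) = 1 := by
  obtain ⟨r, e⟩ := exists_zetaC_eq_pow hdiv
  have h : zetaC M ^ b = zetaC M := by
    conv_rhs => rw [← hσM, e, map_pow, hσ, pow_right_comm, ← e]
  have hz0 := (ES.zetaC_isPrimitiveRoot M).ne_zero (NeZero.ne M)
  have hd := ((ES.zetaC_isPrimitiveRoot M).zpow_eq_one_iff_dvd ((b : ℤ) - 1)).mp (by
    rw [zpow_sub₀ hz0, zpow_natCast, h, zpow_one, div_self hz0])
  rw [← ZMod.intCast_zmod_eq_zero_iff_dvd] at hd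
  push_cast at hd
  exact sub_eq_zero.mp hd

theorem rep_row (x : (model p M hM).C) :
    (((model p M hM).rep x 1 0 : ℤ) : ZMod p) * (((model p M hM).rep x 1 1 : ℤ) : ZMod p) = 0 := by
  obtain ⟨c, t⟩ := x
  cases t with
  | false =>
    have h := LevelMp.repI_mem hM c
    rw [Gamma0_mem] at h
    show ((repI hM c 1 0 : ℤ) : ZMod p) * _ = 0
    rw [h, zero_mul]
  | true =>
    have hA := (ZMod.intCast_zmod_eq_zero_iff_dvd _ _).mpr (BAD.atkinMat_dvd hM).2
    show _ * ((repO hM c 1 1 : ℤ) : ZMod p) = 0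
    rw [repO, LevelMp.entry_mul]
    push_cast
    rw [hA, (ZMod.intCast_zmod_eq_zero_iff_dvd _ _).mpr (LevelMp.dvd_dilHom _)]
    ring

include hdiv in
/-- The partner of a cusp representative gives the same cusp. -/
theorem exists_partner (hb : IsUnit (b : ZMod (12 * N))) (hbM : (b : ZMod M) = 1)
    (x : (model p M hM).C) :
    ∃ γ : SL(2, ℤ), GalRel (b : ZMod (12 * N)) γ ((model p M hM).rep x) ∧
      γ * ((model p M hM).rep x)⁻¹ ∈ pmLam p M := by
  obtain ⟨γ, hr⟩ := GalRel.exists_left hb ((model p M hM).rep x)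
  refine ⟨γ, hr, Or.inl (Subgroup.mem_inf.mpr ⟨?_, ?_⟩)⟩
  · have hp' := ES.isUnit_natCast_of_dvd ((dvd_mul_right p M).trans hdiv) hb
    obtain ⟨-, -, h10, h11⟩ := (hr.of_dvd ((dvd_mul_right p M).trans hdiv)).entries
    rw [mul_comm ((γ 1 1 : ℤ) : ZMod p) (b : ZMod p), hp'.mul_right_inj] at h11
    have hz := rep_row hM x
    refine mem_gamma0_of_row ?_
    rw [← h10, ← h11]
    linear_combination ((b : ZMod p) - 1) * hz
  · have h := hr.of_dvd ((dvd_mul_left M p).trans hdiv)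
    have hI : (!![1, 0; 0, (b : ZMod M)] : Matrix (Fin 2) (Fin 2) (ZMod M)) = 1 := by
      rw [hbM, Matrix.one_fin_two]
    rw [GalRel, hI, one_mul, mul_one] at h
    refine ES.mem_Gamma_of_modMat ?_
    rw [ES.modMat_mul, ← h, ← ES.modMat_mul, mul_inv_cancel, ES.modMat_one]

theorem mem_BSub_of_fun {f : ℍ → ℂ} (hf : f ∈ (model p M hM).Fun) (hdiv : p * M ∣ 12 * N) :
    f ∈ BSub (12 * N) := by
  obtain ⟨h, -⟩ := (LevelMp.mem_Fun_iff hM).mp hf
  refine ⟨fun γ hγ => h.1 γ (ES.gamma_le_of_dvd hdiv hγ), fun γ => ?_⟩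
  obtain ⟨r, hr⟩ := hdiv
  have : NeZero r := ⟨fun h0 => NeZero.ne (12 * N) (by rw [hr, h0, mul_zero])⟩
  obtain ⟨s, hs⟩ := h.2 γ
  refine ⟨expandL r s, ?_⟩
  rw [hr, mul_comm]
  exact BAD.hasLExp_raise r hs

include hdiv in
/-- The conjugate of an invariant function. -/
theorem exists_conj_fun (hb : IsUnit (b : ZMod (12 * N)))
    (hσ : σ (zetaC (12 * N)) = zetaC (12 * N) ^ b) (hbM : (b : ZMod M) = 1) {f : ℍ → ℂ}
    (hf : f ∈ (model p M hM).Fun) :
    ∃ f' ∈ (model p M hM).Fun,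
      f' = (conjHom (ES.auxLevel12 N) hb hσ ⟨f, mem_BSub_of_fun hM hf hdiv⟩ : ℍ → ℂ) ∧
      ∀ x, (model p M hM).E x f' =
        ModularCurve.coeffMap σ.toRingHom ((model p M hM).E x f) := by
  have : NeZero (p * M) := ⟨mul_ne_zero (NeZero.ne p) (NeZero.ne M)⟩
  obtain ⟨hfB, hinv⟩ := (LevelMp.mem_Fun_iff hM).mp hf
  set F : BSub (12 * N) := ⟨f, mem_BSub_of_fun hM hf hdiv⟩
  set f' := conjHom (ES.auxLevel12 N) hb hσ F
  have hser : ∀ {γ γ' : SL(2, ℤ)}, GalRel (b : ZMod (12 * N)) γ γ' →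
      lexp (12 * N) γ' (f' : ℍ → ℂ) = mapSer (σ : ℂ →+* ℂ) (lexp (12 * N) γ f) :=
    fun h => ES.lexp_conjHom _ hb hσ F h
  have hpm : ∀ {γ : SL(2, ℤ)}, γ ∈ pmLam p M → act γ (f' : ℍ → ℂ) = (f' : ℍ → ℂ) := by
    intro γ' hγ'
    obtain ⟨γ, hr⟩ := GalRel.exists_left hb γ'
    have hmem := (galStable_pmLam.stable _ (ES.isUnit_natCast_of_dvd hdiv hb) γ γ'
      (hr.of_dvd hdiv)).mpr hγ'
    refine (ES.hasLExp_lexp f'.2 γ').eq_of_series ?_
    rw [hser hr, show lexp (12 * N) γ f = lexp (12 * N) 1 f by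
      rw [lexp, lexp, LevelMp.act_pm hinv hmem, ES.act_one], ← hser (GalRel.one _)]
    have := ES.hasLExp_lexp f'.2 1
    rwa [ES.act_one] at this
  have hf' : (f' : ℍ → ℂ) ∈ (model p M hM).Fun := by
    refine ⟨fun γ => ?_, fun γ => ?_⟩
    · rw [hpm γ.2, MonoidHom.one_apply, Units.val_one, one_smul]
    · obtain ⟨s, hs⟩ : ∃ s, HasLExp (12 * N) (act γ (f' : ℍ → ℂ)) s := ⟨_, ES.hasLExp_lexp f'.2 γ⟩
      obtain ⟨r, hr⟩ := hdiv
      have : NeZero r := ⟨fun h0 => NeZero.ne (12 * N) (by rw [hr, h0, mul_zero])⟩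
      obtain ⟨t, ht, -⟩ := exists_hasLExp_of_periodic (d := p * M) (r := r)
        (by rw [hr, mul_comm]) hs fun τ => by
          have hmem : γ * ModularGroup.T ^ (p * M) * γ⁻¹ ∈ pmLam p M :=
            Or.inl (BAD.gamma_qM_le ((Gamma_normal _).conj_mem _
              (by rw [Gamma_mem, ES.T_pow_coe]; simp
                  rw [← Nat.cast_mul, ZMod.natCast_self]) _))
          have e := hpm hmem
          rw [ES.act_mul, ES.act_mul] at e
          have e2 := congrArg (act γ) e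
          rw [← ES.act_mul, inv_mul_cancel, ES.act_one, ES.act_T_pow] at e2
          exact congrFun e2 τ
      exact ⟨t, ht⟩
  refine ⟨_, hf', rfl, fun x => ?_⟩
  obtain ⟨γ, hr, hmem⟩ := exists_partner hM hdiv hb hbM x
  set R := (model p M hM).rep x
  obtain ⟨q, hq⟩ := ((model p M hM).wd_dvd x).trans hdiv
  have : NeZero q := ⟨fun h0 => NeZero.ne (12 * N) (by rw [hq, h0, mul_zero])⟩
  have hE : ∀ {w : ℍ → ℂ}, w ∈ (model p M hM).Fun → ∀ (_ : w ∈ BSub (12 * N)),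
      expandL q ((model p M hM).E x w) = lexp (12 * N) R w := fun hw _ => by
    refine (ES.lexp_eq ?_).symm
    rw [hq, mul_comm]
    exact BAD.hasLExp_raise q (Model.hasLExp_E Model.isParChar_one hw x)
  refine BAD.expandL_injective q ?_
  rw [← coeffMap_expandL, hE hf' f'.2, hE hf F.2, hser hr]
  refine congrArg (mapSer (σ : ℂ →+* ℂ)) ?_
  rw [lexp, lexp, show γ = γ * R⁻¹ * R by group, ES.act_mul, LevelMp.act_pm hinv hmem]

omit hp in
include hdiv in
/-- An automorphism fixes `ζ_M` if its exponent is one modulo `M`. -/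
private theorem apply_zetaC_eq (hσ : σ (zetaC (12 * N)) = zetaC (12 * N) ^ b)
    (hbM : (b : ZMod M) = 1) : σ (zetaC M) = zetaC M := by
  obtain ⟨r, e⟩ := exists_zetaC_eq_pow hdiv
  rw [show σ (zetaC M) = zetaC M ^ b by rw [e, map_pow, hσ, pow_right_comm],
    pow_eq_pow_mod b (ES.zetaC_isPrimitiveRoot M).pow_eq_one,
    show b % M = 1 % M from Int.natCast_modEq_iff.mp
      ((ZMod.intCast_eq_intCast_iff _ _ _).mp (by push_cast; exact hbM)),
    ← pow_eq_pow_mod 1 (ES.zetaC_isPrimitiveRoot M).pow_eq_one, pow_one]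

include hdiv in
/-- A `p`-th root of the conjugate of a `p`-th power of a function without poles. -/
private theorem exists_conj_root (hb : IsUnit (b : ZMod (12 * N)))
    (hσ : σ (zetaC (12 * N)) = zetaC (12 * N) ^ b) {u F' : ℍ → ℂ} (hmu : MDiff u) (hu0 : u ≠ 0)
    (hup : u ^ p ∈ (model p M hM).Fun) (hF' : F' ∈ (model p M hM).Fun)
    (hF'eq : F' = (conjHom (ES.auxLevel12 N) hb hσ ⟨u ^ p, mem_BSub_of_fun hM hup hdiv⟩ : ℍ → ℂ)) :
    ∃ u' : ℍ → ℂ, MDiff u' ∧ u' ^ p = F' ∧ u' ≠ 0 := by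
  set U : BSub (12 * N) := ⟨u ^ p, mem_BSub_of_fun hM hup hdiv⟩
  have hU0 : (U : ℍ → ℂ) ≠ 0 := by
    obtain ⟨τ, hτ⟩ := Function.ne_iff.mp hu0
    exact fun h => pow_ne_zero p hτ (congrFun h τ)
  have hF'0 : F' ≠ 0 := hF'eq ▸ ES.conjHom_ne_zero _ hb hσ hU0
  obtain ⟨u', hu'd, hu'p⟩ := ES.exists_root (Model.mdiff_of_mem hF') hF'0 hp.out.pos fun τ => by
    rw [hF'eq]
    refine ES.dvd_vanishOrd_conjHom _ hb hσ hU0 (fun τ1 => ?_) τ
    obtain ⟨j, hj⟩ := ENat.ne_top_iff_exists.mp (ES.vanishOrd_ne_top hmu hu0 τ1)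
    exact ⟨j, by
      show vanishOrd (u ^ p) τ1 = _
      rw [ES.vanishOrd_pow hmu, ← hj, nsmul_eq_mul]; push_cast; ring⟩
  exact ⟨u', hu'd, hu'p, fun h0 => hF'0 (by rw [← hu'p, h0, zero_pow hp.out.ne_zero])⟩

include hdiv in
/-- The conjugate of the `p`-th power of a quotient by a power of the auxiliary form is the `p`-th
power of the quotient of the conjugate. -/
private theorem conj_divW_pow (hb : IsUnit (b : ZMod (12 * N)))
    (hσ : σ (zetaC (12 * N)) = zetaC (12 * N) ^ b) (hbM : (b : ZMod M) = 1) {m : ℕ}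
    (haux : AuxLevel M m) {i : ℕ} {v v' : ℍ → ℂ} {c : PowerSeries ℂ}
    (hc : HasExp (12 * N) v c) (hc' : HasExp (12 * N) v' (c.map σ.toRingHom))
    (hzp : divW haux i v ^ p ∈ (model p M hM).Fun)
    (hz'p : divW haux i v' ^ p ∈ (model p M hM).Fun) {Z' : ℍ → ℂ} (hZ' : Z' ∈ (model p M hM).Fun)
    (hZ'eq : Z' = (conjHom (ES.auxLevel12 N) hb hσ
      ⟨divW haux i v ^ p, mem_BSub_of_fun hM hzp hdiv⟩ : ℍ → ℂ)) :
    Z' = divW haux i v' ^ p := by
  have hB : ∀ {w : ℍ → ℂ} (hw : w ∈ (model p M hM).Fun),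
      HasLExp (12 * N) w (lexp (12 * N) 1 w) := fun hw => by
    have := ES.hasLExp_lexp (mem_BSub_of_fun hM hw hdiv) 1
    rwa [ES.act_one] at this
  obtain ⟨Lr, hLr⟩ := (dvd_mul_left M p).trans hdiv
  have : NeZero Lr := ⟨fun h0 => NeZero.ne (12 * N) (by rw [hLr, h0, mul_zero])⟩
  have hW : HasLExp (12 * N) (ES.auxW haux) (expandL Lr (wSer M haux)) := by
    rw [hLr, mul_comm]; exact BAD.hasLExp_raise Lr (hasLExp_auxW haux)
  have hσW : mapSer (σ : ℂ →+* ℂ) (expandL Lr (wSer M haux)) = expandL Lr (wSer M haux) := by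
    refine (coeffMap_expandL (σ : ℂ →+* ℂ) Lr _).trans (congrArg _ ?_)
    show mapSer (σ : ℂ →+* ℂ) (ES.difLaurent M (zetaC M) _ _) = _
    rw [ES.mapSer_difLaurent, RingEquiv.coe_toRingHom, apply_zetaC_eq hdiv hσ hbM]
    rfl
  have key : ∀ {w : ℍ → ℂ} {sw : LaurentSeries ℂ} (_ : HasLExp (12 * N) w sw) (q : ℕ)
      (_ : divW haux i w ^ q ∈ (model p M hM).Fun),
      lexp (12 * N) 1 (divW haux i w ^ q) * (expandL Lr (wSer M haux) ^ i) ^ q = sw ^ q :=
    fun {w sw} hw q hq => ((hB hq).mul ((hW.pow i).pow q)).series_unique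
      ((hw.pow q).congr_fun fun τ => by
        have h := congrFun (divW_mul_pow haux i w) τ
        simp only [Pi.mul_apply, Pi.pow_apply] at h ⊢
        rw [← mul_pow, h])
  have hWne : expandL Lr (wSer M haux) ≠ 0 := fun h0 => ES.auxW_ne_zero haux UpperHalfPlane.I (by
    have := (h0 ▸ hW).eq_of_series HasLExp.zero
    exact congrFun this _)
  refine ES.lexp_injective (mem_BSub_of_fun hM hZ' hdiv) (mem_BSub_of_fun hM hz'p hdiv) (γ := 1)
    (mul_right_cancel₀ (pow_ne_zero p (pow_ne_zero i hWne)) ?_)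
  rw [key (HasLExp.of_exp hc') p hz'p, hZ'eq, ES.lexp_conjHom _ hb hσ _ (GalRel.one _)]
  conv_lhs => rw [← hσW, ← map_pow, ← map_pow, ← map_mul, key (HasLExp.of_exp hc) p hzp]
  rw [map_pow, ES.mapSer_ofPowerSeries]
  rfl

/-- A function with invariant `p`-th power has multiplier `φ` if its product with the `p - 1`-st
power of one with multiplier `φ` has the same `p`-th power as an invariant function. -/
private theorem act_eq_of_pow_eq {φ : (model p M hM).Γ →* ℂˣ} (hφp : φ ^ p = 1) {u z G : ℍ → ℂ}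
    (hud : MDiff u) (hu0 : u ≠ 0) (hup : u ^ p ∈ (model p M hM).Fun)
    (hz : z ∈ (model p M hM).Tw φ) (hG : G ∈ (model p M hM).Fun) (hG0 : G ≠ 0)
    (hpow : (u * z ^ (p - 1)) ^ p = G ^ p) (γ : (model p M hM).Γ) :
    act (γ : SL(2, ℤ)) u = (φ γ : ℂ) • u := by
  obtain ⟨e, -, heq⟩ := ES.exists_eq_const_mul_of_pow_eq
    (hud.mul (Model.mdiff_of_mem (Model.pow_mem hz _))) (Model.mdiff_of_mem hG) hp.out.pos hG0 hpow
  have hFinv := hup.1 γ
  rw [MonoidHom.one_apply, Units.val_one, one_smul, show act (γ : SL(2, ℤ)) (u ^ p) =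
    act (γ : SL(2, ℤ)) u ^ p from map_pow (ES.actHom (γ : SL(2, ℤ))) u p] at hFinv
  have hmd : MDiff (act (γ : SL(2, ℤ)) u) := mdiff_act hud _
  obtain ⟨r, -, hr⟩ := ES.exists_eq_const_mul_of_pow_eq hmd hud hp.out.pos hu0 hFinv
  have hprod : act (γ : SL(2, ℤ)) (u * z ^ (p - 1)) = u * z ^ (p - 1) := by
    have e1 : u * z ^ (p - 1) = (e : ℂ) • G := funext heq
    rw [e1, ES.act_smulFun, hG.1 γ, MonoidHom.one_apply, Units.val_one, one_smul]
  have hzpow : act (γ : SL(2, ℤ)) (z ^ (p - 1)) = ((φ γ : ℂ) ^ (p - 1)) • z ^ (p - 1) := by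
    rw [show act (γ : SL(2, ℤ)) (z ^ (p - 1)) = act (γ : SL(2, ℤ)) z ^ (p - 1) from
      map_pow (ES.actHom (γ : SL(2, ℤ))) z _, hz.1 γ, smul_pow]
  rw [ES.act_mulFun, hzpow, show act (γ : SL(2, ℤ)) u = (r : ℂ) • u from funext hr,
    smul_mul_smul_comm] at hprod
  obtain ⟨τ, hτ⟩ := Function.ne_iff.mp
    (show u * z ^ (p - 1) ≠ 0 from fun h0 => hG0 (funext fun τ => by
      have h := heq τ
      rw [congrFun h0 τ] at h
      exact (mul_eq_zero.mp h.symm).resolve_left (Units.ne_zero e)))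
  have h1 : (r : ℂ) * (φ γ : ℂ) ^ (p - 1) = 1 :=
    mul_right_cancel₀ hτ (by rw [one_mul]; exact congrFun hprod τ)
  have h2 : (φ γ : ℂ) ^ p = 1 := by
    rw [← Units.val_pow_eq_pow_val, ← MonoidHom.pow_apply, hφp]; rfl
  have h3 : (r : ℂ) = (φ γ : ℂ) := by
    calc (r : ℂ) = (r : ℂ) * ((φ γ : ℂ) ^ (p - 1) * (φ γ : ℂ)) := by
          rw [← pow_succ, Nat.sub_add_cancel hp.out.one_le, h2, mul_one]
      _ = _ := by rw [← mul_assoc, h1, one_mul]
  exact funext fun τ => by rw [hr τ, Pi.smul_apply, smul_eq_mul, h3]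

include hdiv in
/-- A root with multiplier of a conjugate has expansions at all cusps. -/
private theorem exists_hasLExp_conj_root (hb : IsUnit (b : ZMod (12 * N)))
    (hσ : σ (zetaC (12 * N)) = zetaC (12 * N) ^ b) {φ φ' : (model p M hM).Γ →* ℂˣ}
    (hpar : IsParChar (model p M hM).Γ φ') {u u' : ℍ → ℂ} (hu : u ∈ (model p M hM).Tw φ)
    (hup : u ^ p ∈ (model p M hM).Fun) (hu'd : MDiff u')
    (hu'p : u' ^ p = (conjHom (ES.auxLevel12 N) hb hσ
      ⟨u ^ p, mem_BSub_of_fun hM hup hdiv⟩ : ℍ → ℂ))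
    (hinv : ∀ γ : (model p M hM).Γ, act (γ : SL(2, ℤ)) u' = (φ' γ : ℂ) • u') (γ : SL(2, ℤ)) :
    ∃ t, HasLExp (model p M hM).lev (act γ u') t := by
  have : NeZero (p * M) := ⟨mul_ne_zero (NeZero.ne p) (NeZero.ne M)⟩
  set U : BSub (12 * N) := ⟨u ^ p, mem_BSub_of_fun hM hup hdiv⟩
  obtain ⟨δ, hr⟩ := GalRel.exists_left hb γ
  obtain ⟨t, ht⟩ := hu.2 δ
  obtain ⟨q, hq⟩ := hdiv
  have : NeZero q := ⟨fun h0 => NeZero.ne (12 * N) (by rw [hq, h0, mul_zero])⟩
  have ht' : HasLExp (12 * N) (act δ u) (expandL q t) := by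
    rw [hq, mul_comm]; exact BAD.hasLExp_raise q ht
  have h1 : HasLExp (12 * N) (act γ u' ^ p) (mapSer (σ : ℂ →+* ℂ) (expandL q t) ^ p) := by
    rw [show act γ u' ^ p = act γ (u' ^ p) from (map_pow (ES.actHom γ) u' p).symm, hu'p,
      ← map_pow, ← ES.lexp_eq (show HasLExp (12 * N) (act δ (u ^ p)) (expandL q t ^ p) by
        rw [show act δ (u ^ p) = act δ u ^ p from map_pow (ES.actHom δ) u p]; exact ht'.pow p),
      ← ES.lexp_conjHom _ hb hσ U hr]
    exact ES.hasLExp_lexp (conjHom _ hb hσ U).2 γ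
  have hmd : MDiff (act γ u') := mdiff_act hu'd _
  obtain ⟨s, hs⟩ := exists_hasLExp_root hmd h1
  obtain ⟨t', ht', -⟩ := exists_hasLExp_of_periodic (d := p * M) (r := q)
    (by rw [hq, mul_comm]) hs fun τ => by
      have hmem : γ * ModularGroup.T ^ (p * M) * γ⁻¹ ∈ pmLam p M :=
        Or.inl (BAD.gamma_qM_le ((Gamma_normal _).conj_mem _
          (by rw [Gamma_mem, ES.T_pow_coe]; simp
              rw [← Nat.cast_mul, ZMod.natCast_self]) _))
      have e0 := hinv ⟨_, hmem⟩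
      rw [hpar ⟨_, hmem⟩ (by
        show ((γ * ModularGroup.T ^ (p * M) * γ⁻¹ : SL(2, ℤ)) :
          Matrix (Fin 2) (Fin 2) ℤ).trace ^ 2 = 4
        rw [Matrix.SpecialLinearGroup.coe_mul, Matrix.SpecialLinearGroup.coe_mul,
          Matrix.trace_mul_cycle, ← Matrix.SpecialLinearGroup.coe_mul, inv_mul_cancel,
          Matrix.SpecialLinearGroup.coe_one, one_mul, ES.T_pow_coe]
        simp [Matrix.trace_fin_two]), Units.val_one, one_smul, ES.act_mul, ES.act_mul] at e0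
      have e2 := congrArg (act γ) e0
      rw [← ES.act_mul, inv_mul_cancel, ES.act_one, ES.act_T_pow] at e2
      exact congrFun e2 τ
  exact ⟨t', ht'⟩

variable (L : IsLevel p M Γ Γ') (hG : GoodLevel N Γ)

include hdiv hG in
/-- Functions with multiplier follow the coefficients up to roots. -/
theorem exists_conj_tw {n' : ℕ} [NeZero n'] (hb : IsUnit (b : ZMod (12 * N)))
    (hσ : σ (zetaC (12 * N)) = zetaC (12 * N) ^ b) (hbM : (b : ZMod M) = 1)
    {m : ℕ} (haux : AuxLevel M m)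
    (χ : parGroup Γ n') (hk : KillsPm p M p (χ : Γ →* ℂˣ)) {u : ℍ → ℂ}
    (hu : u ∈ (model p M hM).Tw (resPm hM L χ)) :
    ∃ u' ∈ (model p M hM).Tw (resPm hM L (conjChar hG σ χ : Γ →* ℂˣ)),
      ∀ x, (model p M hM).E x (u' ^ p) =
        ModularCurve.coeffMap σ.toRingHom ((model p M hM).E x (u ^ p)) := by
  set χ' := conjChar hG σ χ
  have hφp := resPm_pow_eq_one hM L hk
  have hφ'p := resPm_pow_eq_one hM L (killsPm_conj L hG hdiv σ χ hk)
  by_cases hu0 : u = 0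
  · subst hu0
    refine ⟨0, Submodule.zero_mem _, fun x => ?_⟩
    rw [zero_pow hp.out.ne_zero, Model.E_zero, map_zero]
  have hupF := Model.pow_mem_fun hu hφp
  obtain ⟨F', hF', hF'eq, hF'E⟩ := exists_conj_fun hM hdiv hb hσ hbM hupF
  have hmu := Model.mdiff_of_mem hu
  obtain ⟨u', hu'd, hu'p, hu'0⟩ := exists_conj_root hM hdiv hb hσ hmu hu0 hupF hF' hF'eq
  -- forms with the multipliers
  obtain ⟨i, v, v', c, hv, hv0, hv', hv'0, hc, hc'⟩ := ES.conjChar_spec hG σ χ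
  set z := divW haux i v
  set z' := divW haux i v'
  have hz := divW_mem hM L haux χ.2.2 hv0 hv
  have hz' := divW_mem hM L haux χ'.2.2 hv'0 hv'
  have hzp := Model.pow_mem_fun hz hφp
  have hz'p := Model.pow_mem_fun hz' hφ'p
  obtain ⟨Z', hZ', hZ'eq, -⟩ := exists_conj_fun hM hdiv hb hσ hbM hzp
  have hZ := conj_divW_pow hM hdiv hb hσ hbM haux hc hc' hzp hz'p hZ' hZ'eq
  -- the multiplier
  have hgF : u * z ^ (p - 1) ∈ (model p M hM).Fun := Model.mul_pow_mem_fun hφp hu hz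
  obtain ⟨G', hG', hG'eq, -⟩ := exists_conj_fun hM hdiv hb hσ hbM hgF
  have hpow : (u' * z' ^ (p - 1)) ^ p = G' ^ p := by
    rw [mul_pow, hu'p, ← pow_mul, mul_comm (p - 1) p, pow_mul, ← hZ, hF'eq, hZ'eq, hG'eq]
    have hel : (⟨u * z ^ (p - 1), mem_BSub_of_fun hM hgF hdiv⟩ : BSub (12 * N)) ^ p =
        (⟨u ^ p, mem_BSub_of_fun hM hupF hdiv⟩ : BSub (12 * N)) *
          (⟨z ^ p, mem_BSub_of_fun hM hzp hdiv⟩ : BSub (12 * N)) ^ (p - 1) := by
      refine Subtype.ext ?_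
      show (u * z ^ (p - 1)) ^ p = u ^ p * (z ^ p) ^ (p - 1)
      rw [mul_pow, ← pow_mul, ← pow_mul, mul_comm p (p - 1)]
    have := congrArg (fun X : BSub (12 * N) => (conjHom (ES.auxLevel12 N) hb hσ X : ℍ → ℂ)) hel
    simp only [map_mul, map_pow] at this
    exact this.symm
  have hG'0 : G' ≠ 0 := by
    rw [hG'eq]
    refine ES.conjHom_ne_zero _ hb hσ ?_
    refine ES.mul_ne_zero_of_mdiff (Model.mdiff_of_mem (Model.pow_mem hz _)) hmu hu0 fun h0 => ?_
    obtain ⟨τ, hτ⟩ := Function.ne_iff.mp (divW_ne_zero haux (i := i) hv0)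
    exact pow_ne_zero _ hτ (congrFun h0 τ)
  have hinv := act_eq_of_pow_eq hM hφ'p hu'd hu'0 (hu'p ▸ hF') hz' hG' hG'0 hpow
  exact ⟨u', ⟨hinv, exists_hasLExp_conj_root hM hdiv hb hσ (isParChar_resPm hM L χ'.2.2) hu hupF
    hu'd (hu'p.trans hF'eq) hinv⟩, fun x => by rw [hu'p]; exact hF'E x⟩

variable {m : ℕ} (haux : AuxLevel M m)

include hdiv haux L hG in
/-- **A character near `p`-th powers at both cusps is transformed by conjugation into a power.** -/
theorem eqPm_conj_pow_of_near {w : ℕ} (hσ : Keeps K σ) (hσM : σ (zetaC M) = zetaC M)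
    (hw : σ (zp p) = zp p ^ w) (hwp : w ≤ p) {n' : ℕ} [NeZero n']
    (χ : parGroup Γ n') (hk : KillsPm p M p (χ : Γ →* ℂˣ))
    {y y' : LaurentSeries ℂ} (h : IsClass K p (χ : Γ →* ℂˣ) y)
    (h' : IsClass K p ((χ : Γ →* ℂˣ).comp (L.wHom hM)) y')
    (hn : PowApprox K p (rp P ^ p) y) (hn' : PowApprox K p (rp P ^ p) y') :
    EqPm p M (conjChar hG σ χ : Γ →* ℂˣ) ((χ : Γ →* ℂˣ) ^ w) := by
  obtain ⟨b, hb, hσb⟩ := ES.exists_unit_exponent (12 * N) σ
  have hbM := natCast_eq_one_of_fix hdiv hσb hσM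
  obtain ⟨G, hbasic⟩ := LevelMp.exists_good hM haux K
  set φ := resPm hM L (χ : Γ →* ℂˣ) with hφdef
  have hnear := near_of_class hM L haux hbasic hk h h' hn hn'
  obtain ⟨-, hpar, i, v, s, a, hv, hv0, -⟩ := h
  have hφp := resPm_pow_eq_one hM L hk
  have key := G.char_eq_pow (LevelMp.gamma_le_model hM) (isParChar_resPm hM L hpar) hφp
    (φ' := resPm hM L (conjChar hG σ χ : Γ →* ℂˣ))
    (isParChar_resPm hM L (conjChar hG σ χ).2.2)
    (resPm_pow_eq_one hM L (killsPm_conj L hG hdiv σ χ hk))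
    (divW_mem hM L haux hpar hv0 hv) (divW_ne_zero haux hv0) hnear hσ.abv hσ.res hwp hw
    (fun f hf => by
      obtain ⟨f', hf', -, hE⟩ := exists_conj_fun hM hdiv hb hσb hbM hf
      exact ⟨f', hf', hE⟩)
    (fun u hu => exists_conj_tw hM hdiv L hG hb hσb hbM haux χ hk hu)
  exact fun γ hγ => DFunLike.congr_fun key ⟨γ, hγ⟩

include hdiv haux L hG in
/-- **A character near `p`-th powers at both cusps, with fixed restriction, is trivial on
`±(Γ₀(p) ∩ Γ(M))`.** -/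
theorem killsPm_one_of_near {w : ℕ} (hσ : Keeps K σ) (hσM : σ (zetaC M) = zetaC M)
    (hw : σ (zp p) = zp p ^ w) (hwp : w ≤ p) (hw1 : (w : ZMod p) ≠ 1) {n' : ℕ} [NeZero n']
    (χ : parGroup Γ n') (hk : KillsPm p M p (χ : Γ →* ℂˣ))
    (hfix : EqPm p M (conjChar hG σ χ : Γ →* ℂˣ) (χ : Γ →* ℂˣ))
    {y y' : LaurentSeries ℂ} (h : IsClass K p (χ : Γ →* ℂˣ) y)
    (h' : IsClass K p ((χ : Γ →* ℂˣ).comp (L.wHom hM)) y')
    (hn : PowApprox K p (rp P ^ p) y) (hn' : PowApprox K p (rp P ^ p) y') :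
    KillsPm p M 1 (χ : Γ →* ℂˣ) := by
  have key := eqPm_conj_pow_of_near hM hdiv L hG haux hσ hσM hw hwp χ hk h h' hn hn'
  intro γ hγ
  rw [pow_one]
  set x : ℂˣ := (χ : Γ →* ℂˣ) γ with hx
  have h1 : x = x ^ w := (hfix γ hγ).symm.trans (key γ hγ)
  have h2 : x ^ p = 1 := hk γ hγ
  show x = 1
  by_contra hx1
  have hord : orderOf x = p := orderOf_eq_prime h2 hx1
  have h3 : x ^ 1 = x ^ w := by rw [pow_one]; exact h1
  rw [pow_eq_pow_iff_modEq, hord, ← ZMod.natCast_eq_natCast_iff] at h3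
  exact hw1 (by simpa using h3.symm)

end FermatAgent.PSEMI
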