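import Fermat.Agent.PSEMI.Class.Sigma
import Fermat.Agent.PSEMI.Scalar
import Fermat.Agent.PSEMI.LevelMp.Axioms

/-!
# Characters near `p`-th powers at both cusps over `∞`, on the model

The classes give expansions of the model at `±(Γ₀(p) ∩ Γ(M))`; when they are near `p`-th powers
at both cusps over `∞`, the restricted character is near at the basic cusps of the model.
-/

set_option autoImplicit false

open UpperHalfPlane CongruenceSubgroup
open scoped MatrixGroups ModularForm Manifold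

noncomputable section

namespace FermatAgent.PSEMI

open FermatAgent.ES (IsTwist IsParChar parGroup GoodLevel GalRel conjChar CPlace HasExp
  HasLExp mapSer modMat zetaC AuxLevel act lexp twistSer twistSer_one auxW dif refA refB vmul BSub
  SerIn)
open FermatAgent.BAD (expandL dilFun atkinMat atkin)
open LevelMp (pmLam CI repI repO model)

variable {p : ℕ} [hp : Fact p.Prime] {M : ℕ} [NeZero M] {Γ Γ' : Subgroup SL(2, ℤ)}
  {P : CPlace p} {K : Coeffs P} {m : ℕ}

/-! ### Series -/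

omit hp in
theorem abv_twist_coeff {N : ℕ} [NeZero N] (P : CPlace p) (k : ℕ) (s : LaurentSeries ℂ) (j : ℤ) :
    P.abv ((twistSer (zetaC N ^ k) s).coeff j) = P.abv (s.coeff j) := by
  rw [ES.coeff_twistSer, map_mul, map_zpow₀, map_pow, LevelMp.abv_zetaC, one_pow, one_zpow, mul_one]

omit hp in
/-- Twisting by roots of unity preserves approximate powers. -/
theorem PowApprox.twist {n : ℕ} {c : ℝ} {s : LaurentSeries ℂ} {N : ℕ} [NeZero N]
    (h : PowApprox K n c s) (k : ℕ) : PowApprox K n c (twistSer (zetaC N ^ k) s) := by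
  classical
  obtain ⟨t, ⟨S, hS, ht⟩, hle⟩ := h
  have hS' : ((insert (zetaC N) S : Finset ℂ) : Set ℂ) ⊆ P.ring := by
    rw [Finset.coe_insert, Set.insert_subset_iff]; exact ⟨LevelMp.zetaC_mem P N, hS⟩
  refine ⟨twistSer (zetaC N ^ k) t, ⟨_, hS', BAD.serIn_twist (serIn_mono ht (K.mono (by simp)))
    (K.subset hS' (by simp)) _⟩, ?_⟩
  have hne : zetaC N ^ k ≠ 0 :=
    pow_ne_zero _ ((ES.zetaC_isPrimitiveRoot N).ne_zero (NeZero.ne N))
  have e : ∀ q : ℕ, twistSer (zetaC N ^ k) (t ^ q) = twistSer (zetaC N ^ k) t ^ q := fun q => by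
    induction q with
    | zero => simp [twistSer_one]
    | succ q ih => rw [pow_succ, pow_succ, BAD.twistSer_mul _ hne, ih]
  rw [← e, ← BAD.twistSer_sub]
  intro j
  rw [abv_twist_coeff]
  exact hle j

theorem expandL_C' (q : ℕ) [NeZero q] (a : ℂ) :
    expandL q (HahnSeries.C a : LaurentSeries ℂ) = HahnSeries.C a := by
  rw [HahnSeries.C_apply, BAD.expandL_single, mul_zero]

/-- A series times a power of a class near `p`-th powers, equal to a `p`-th power, is near. -/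
theorem powApprox_of_mul_eq {U Y T : LaurentSeries ℂ} (hU : Fine K U) (huU : P.UnitCoeff U)
    (hY : Nice K Y) (hnear : PowApprox K p (rp P ^ p) Y) {b d : ℂ} (hb : b ≠ 0)
    (hT : Fine K (HahnSeries.C b * T))
    (h : U * Y ^ (p - 1) = HahnSeries.C d * T ^ p) : PowApprox K p (rp P ^ p) U := by
  have hUn : Nice K U := ⟨hU, huU⟩
  have hW := hUn.mul (hY.pow (p - 1))
  have hT0 : T ≠ 0 := fun h0 => by
    rw [h0, zero_pow hp.out.ne_zero, mul_zero] at h
    obtain ⟨i, hi⟩ := hW.2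
    rw [h, HahnSeries.coeff_zero, map_zero] at hi
    exact zero_ne_one hi
  obtain ⟨c, hc, ht⟩ := exists_nice_smul hT0 hb hT
  have e : U * Y ^ (p - 1) =
      HahnSeries.C (d * (c ^ p)⁻¹) * (HahnSeries.C c * T) ^ p := by
    rw [h, mul_pow, ← map_pow, ← mul_assoc, ← map_mul, mul_assoc,
      inv_mul_cancel₀ (pow_ne_zero _ hc), mul_one]
  have h1 := abv_eq_one_of_nice (ht.pow p) (e ▸ hW)
  refine PowApprox.of_mul hp.out.ne_zero rpp_pos rpp_lt_one hU.serIn (hY.pow (p - 1)).serIn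
    (hY.pow (p - 1)).2 ?_ (hnear.pow rpp_pos.le hY.serIn _)
  rw [e]
  exact (Triv.mul ((ht.pow p).serIn) (triv_C hp.out.ne_zero h1) (triv_pow ht.1)) _ rpp_pos

/-- A root of a function with a `p`-th power expansion has an expansion. -/
theorem exists_hasLExp_root {N : ℕ} [NeZero N] {g : ℍ → ℂ} (hg : MDiff g) {t : LaurentSeries ℂ}
    (h : HasLExp N (g ^ p) (t ^ p)) : ∃ s, HasLExp N g s := by
  by_cases ht : t = 0
  · refine ⟨0, ?_⟩
    rw [ht, zero_pow hp.out.ne_zero] at h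
    have h0 : g ^ p = 0 := h.eq_of_series HasLExp.zero
    have : g = 0 := funext fun τ => eq_zero_of_pow_eq_zero (congrFun h0 τ)
    rw [this]; exact HasLExp.zero
  obtain ⟨r, d, hd, hs⟩ := h
  obtain ⟨r', c, hc⟩ : ∃ (r' : ℕ) (c : PowerSeries ℂ),
      t = HahnSeries.single (-(r' : ℤ)) 1 * HahnSeries.ofPowerSeries ℤ ℂ c := by
    refine ⟨(-t.order).toNat,
      PowerSeries.X ^ (t.order + (-t.order).toNat).toNat * t.powerSeriesPart, ?_⟩
    rw [map_mul, HahnSeries.ofPowerSeries_X_pow, ← mul_assoc, HahnSeries.single_mul_single, one_mul]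
    rw [show -((-t.order).toNat : ℤ) + ((t.order + ((-t.order).toNat : ℤ)).toNat : ℤ) = t.order by
      omega]
    exact (LaurentSeries.single_order_mul_powerSeriesPart t).symm
  have hc0 : c ≠ 0 := fun h0 => ht (by rw [hc, h0, map_zero, mul_zero])
  have hq : HasExp N (fun τ => (g τ * ES.qm N τ ^ (r' + r)) ^ p)
      ((PowerSeries.X ^ r * c) ^ p) := by
    have h1 := (HasExp.qm_pow (M := N) (p * r' + (p - 1) * r)).mul hd
    have e1 : PowerSeries.X ^ (p * r' + (p - 1) * r) * d = (PowerSeries.X ^ r * c) ^ p := by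
      refine HahnSeries.ofPowerSeries_injective (Γ := ℤ) ?_
      rw [hc, mul_pow, HahnSeries.single_pow, one_pow] at hs
      have e2 := congrArg (fun x => HahnSeries.single ((p * r' + p * r : ℕ) : ℤ) (1 : ℂ) * x) hs
      simp only [← mul_assoc, HahnSeries.single_mul_single, one_mul] at e2
      rw [map_mul, mul_pow, map_mul, ← pow_mul, HahnSeries.ofPowerSeries_X_pow,
        HahnSeries.ofPowerSeries_X_pow]
      have hp1 : ((p * r' + p * r : ℕ) : ℤ) + -(r : ℤ) = ((p * r' + (p - 1) * r : ℕ) : ℤ) := by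
        push_cast [Nat.cast_sub hp.out.one_le]; ring
      have hp2 : ((p * r' + p * r : ℕ) : ℤ) + (p : ℕ) • (-(r' : ℤ)) = ((r * p : ℕ) : ℤ) := by
        rw [nsmul_eq_mul]; push_cast; ring
      rw [hp1, hp2] at e2
      rw [map_pow]
      exact e2.symm
    rw [e1] at h1
    refine h1.congr_fun fun τ => ?_
    simp only [Pi.mul_apply, Pi.pow_apply]
    rw [mul_pow, ← pow_mul, show (r' + r) * p = p * r' + (p - 1) * r + r by
      rw [Nat.sub_mul, one_mul]
      have : r ≤ p * r := Nat.le_mul_of_pos_left _ hp.out.pos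
      rw [add_mul, mul_comm r' p, mul_comm r p]; omega, pow_add]
    ring
  have hmd : MDiff fun τ => g τ * ES.qm N τ ^ (r' + r) :=
    hg.mul (HasExp.qm_pow (M := N) (r' + r)).mdifferentiable
  obtain ⟨ω, -, hω⟩ := ES.exists_exp_of_pow hmd hp.out.pos
    (mul_ne_zero (pow_ne_zero _ PowerSeries.X_ne_zero) hc0) hq
  exact ⟨_, r' + r, PowerSeries.C ω * (PowerSeries.X ^ r * c),
    hω.congr_fun fun τ => mul_comm _ _, rfl⟩

/-! ### Characters on `±(Γ₀(p) ∩ Γ(M))` -/

variable (hM : M.Coprime p) (L : IsLevel p M Γ Γ')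

/-- The restriction to `±(Γ₀(p) ∩ Γ(M))`. -/
def resPm (χ : Γ →* ℂˣ) : (model p M hM).Γ →* ℂˣ :=
  χ.comp (Subgroup.inclusion L.pm_le)

theorem resPm_apply (χ : Γ →* ℂˣ) {γ : SL(2, ℤ)} (h : γ ∈ pmLam p M) :
    resPm hM L χ ⟨γ, h⟩ = χ ⟨γ, L.pm_le h⟩ := rfl

/-- The restriction of a parabolic character to `±(Γ₀(p) ∩ Γ(M))` is parabolic. -/
theorem isParChar_resPm {χ : Γ →* ℂˣ} (hχ : IsParChar Γ χ) :
    IsParChar (model p M hM).Γ (resPm hM L χ) := fun _ hγ => hχ _ hγ

/-- The restriction of a character of exponent `p` on `±(Γ₀(p) ∩ Γ(M))` has order dividing `p`. -/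
theorem resPm_pow_eq_one {χ : Γ →* ℂˣ} (hk : KillsPm p M p χ) : resPm hM L χ ^ p = 1 :=
  MonoidHom.ext fun γ => hk ⟨γ, L.pm_le γ.2⟩ γ.2

variable (haux : AuxLevel M m)

/-- The function of a form. -/
def divW (i : ℕ) (v : ℍ → ℂ) : ℍ → ℂ := fun τ => v τ / auxW haux τ ^ i

/-- The function of a form times the power of the auxiliary form is the form. -/
theorem divW_mul_pow (i : ℕ) (v : ℍ → ℂ) : divW haux i v * auxW haux ^ i = v := by
  funext τ
  simp only [divW, Pi.mul_apply, Pi.pow_apply,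
    div_mul_cancel₀ _ (pow_ne_zero _ (ES.auxW_ne_zero haux τ))]

/-- The function of a nonzero form is nonzero. -/
theorem divW_ne_zero {i : ℕ} {v : ℍ → ℂ} (hv : v ≠ 0) : divW haux i v ≠ 0 := fun h => hv (by
  rw [← divW_mul_pow haux i v, h, zero_mul])

include L in
/-- The function of a form with multiplier `χ` is a twisted function on the model, with the
restriction of `χ`. -/
theorem divW_mem {i : ℕ} {χ : Γ →* ℂˣ} (hχ : IsParChar Γ χ) {v : ℍ → ℂ} (hv0 : v ≠ 0)
    (hv : IsTwist Γ ((2 * i : ℕ) : ℤ) χ v) : divW haux i v ∈ (model p M hM).Tw (resPm hM L χ) := by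
  set f := divW haux i v
  have hlam : ∀ {γ : SL(2, ℤ)} (h : γ ∈ BAD.lam p M),
      act γ f = ((χ ⟨γ, L.lam_le h⟩ : ℂˣ) : ℂ) • f := fun {γ} hγ =>
    ES.act_div_auxW haux hγ.2 (hv.slash ⟨γ, L.lam_le hγ⟩)
  have hneg : χ ⟨-1, L.neg_one_mem⟩ = 1 := by
    obtain ⟨τ, hτ⟩ := Function.ne_iff.mp hv0
    have h := congrFun (hv.slash ⟨-1, L.neg_one_mem⟩) τ
    refine Units.ext (mul_right_cancel₀ hτ ?_)
    rw [Units.val_one, one_mul]
    refine h.symm.trans ?_
    rw [ModularForm.SL_slash_apply, show ((-1 : SL(2, ℤ)) • τ) = τ from by simp,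
      ModularGroup.denom_apply]
    simp [zpow_mul]
  refine ⟨fun γ => ?_, exists_hasLExp_div L haux hχ hv⟩
  · obtain ⟨γ, hγ | hγ⟩ := γ
    · exact hlam hγ
    · rw [show (resPm hM L χ) ⟨γ, Or.inr hγ⟩ = χ ⟨-γ, L.lam_le hγ⟩ by
        refine (resPm_apply hM L χ (Or.inr hγ)).trans ?_
        rw [show (⟨γ, L.pm_le (Or.inr hγ)⟩ : Γ) =
            ⟨-1, L.neg_one_mem⟩ * ⟨-γ, L.lam_le hγ⟩ from Subtype.ext (by simp),
          map_mul, hneg, one_mul]]
      rw [← hlam hγ]
      show act γ f = act (-γ) f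
      conv_lhs => rw [show γ = (-1) * -γ by simp, ES.act_mul, ES.act_neg_one]

/-! ### Cusps over `∞` -/

theorem hasLExp_at_inf {f : ℍ → ℂ} (hf : f ∈ BAD.LSub p M) :
    HasLExp M f (lexp M 1 f) := by
  have h := LevelMp.hasLExp_inf hf (one_mem (Gamma0 p))
  rwa [ES.act_one] at h

theorem E_basic_inf {f : ℍ → ℂ} (hf : f ∈ BAD.LSub p M) :
    ∃ k : ℕ, lexp M (repI hM ((1 : SL(2, ℤ)) : CI M)) f = twistSer (zetaC M ^ k) (lexp M 1 f) := by
  set R := repI hM ((1 : SL(2, ℤ)) : CI M)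
  have hR := LevelMp.repI_mem hM ((1 : SL(2, ℤ)) : CI M)
  have hcs : R ∈ LevelMp.cuspSub M := by
    have h := QuotientGroup.eq.mp (LevelMp.mk_repI hM ((1 : SL(2, ℤ)) : CI M)).symm
    simpa using h
  obtain ⟨k, hk⟩ := LevelMp.eq_pm_of_cuspSub hcs
  refine ⟨k, ES.lexp_eq ?_⟩
  have hT : ModularGroup.T ^ k ∈ Gamma0 p := by rw [Gamma0_mem, ES.T_pow_coe]; simp
  have hx0 : R * (ModularGroup.T ^ k)⁻¹ ∈ Gamma0 p := mul_mem hR (inv_mem hT)
  have hmem : R * (ModularGroup.T ^ k)⁻¹ ∈ pmLam p M := by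
    rcases hk with h | h
    · exact Or.inl ⟨hx0, h⟩
    · exact Or.inr ⟨LevelMp.neg_mem_Gamma0 hx0, h⟩
  have e : act R f = act (ModularGroup.T ^ k) f := by
    rw [show R = (R * (ModularGroup.T ^ k)⁻¹) * ModularGroup.T ^ k by group, ES.act_mul,
      LevelMp.act_pm hf.2 hmem]
  rw [e]
  exact ES.hasLExp_act_T_pow (hasLExp_at_inf hf) k

include hM in
/-- Unit series of a function near a class. -/
theorem powApprox_lexp {f g : ℍ → ℂ} (hf : f ∈ BAD.LSub p M) (hfi : SerIn P.ring (lexp M 1 f))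
    (hu : P.UnitCoeff (lexp M 1 f)) (hg : g ∈ BAD.LSub p M) {Y : LaurentSeries ℂ} (hY : Nice K Y)
    (hnear : PowApprox K p (rp P ^ p) Y) {a : ℂ} {ws : LaurentSeries ℂ}
    (hws : Fine K ws) (haux' : AuxLevel M m)
    (h : lexp M 1 f * Y ^ (p - 1) = HahnSeries.C a * (lexp M 1 g * ws) ^ p) :
    PowApprox K p (rp P ^ p) (lexp M 1 f) := by
  obtain ⟨b, hb, hbf⟩ := LevelMp.exists_fine_inf hM haux' K hf
  obtain ⟨b', hb', hbg⟩ := LevelMp.exists_fine_inf hM haux' K hg
  exact powApprox_of_mul_eq (fine_of_bound hb hbf hfi) hu hY hnear hb'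
    (by rw [← mul_assoc]; exact hbg.mul hws) h

include L haux in
/-- **Near classes give nearness at the basic cusps.** -/
theorem near_of_class {G : (model p M hM).Good K}
    (hG : ∀ c ∈ G.basic, c.1 = ((1 : SL(2, ℤ)) : CI M)) {χ : Γ →* ℂˣ} (hk : KillsPm p M p χ)
    {y y' : LaurentSeries ℂ} (h : IsClass K p χ y) (h' : IsClass K p (χ.comp (L.wHom hM)) y')
    (hn : PowApprox K p (rp P ^ p) y) (hn' : PowApprox K p (rp P ^ p) y') :
    G.Near (resPm hM L χ) := by
  obtain ⟨hy, hpar, i, v, sv, a, hv, hv0, hsv, ha, rfl⟩ := h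
  set z := divW haux i v
  set φ := resPm hM L χ
  have hφ := isParChar_resPm hM L hpar
  have hz : z ∈ (model p M hM).Tw φ := divW_mem hM L haux hpar hv0 hv
  have hφp := resPm_pow_eq_one hM L hk
  have hp1 : p - 1 + 1 = p := Nat.sub_add_cancel hp.out.one_le
  have hzp : z ^ p ∈ BAD.LSub p M := (LevelMp.mem_Fun_iff hM).mp (Model.pow_mem_fun hz hφp)
  -- the Atkin transform
  have hparW := L.isParChar_wHom hM hpar
  have hz1 := L.isTwist_wForm hM hv
  obtain ⟨sw, hsw⟩ := exists_series L hparW hz1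
  obtain ⟨a', ha', h''⟩ := exists_isClass_of_form (K := K) hM L haux (killsPm_wHom hM L hk)
    hparW hz1
    (wForm_ne_zero hM hv0) hsw
  have hn'' := (h''.cong hM L haux hp.out.ne_zero rpp_pos h' (fun _ _ => rfl)
    (killsPm_wHom hM L hk)).powApprox hp.out.ne_zero rpp_pos rpp_lt_one h''.1 h'.1 hn'
  intro u hu c hc hci hcu
  set g := u * z ^ (p - 1)
  have hgF : g ∈ (model p M hM).Fun := by
    have h1 := Model.mul_mem hu (Model.pow_mem hz (p - 1))
    rwa [show φ * φ ^ (p - 1) = φ ^ p from MonoidHom.ext fun γ => by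
      simp only [MonoidHom.mul_apply, MonoidHom.pow_apply]; rw [← pow_succ', hp1], hφp] at h1
  have hgL := (LevelMp.mem_Fun_iff hM).mp hgF
  have hup : u ^ p ∈ BAD.LSub p M := (LevelMp.mem_Fun_iff hM).mp (Model.pow_mem_fun hu hφp)
  have hgp : u ^ p * (z ^ p) ^ (p - 1) = g ^ p := by
    rw [mul_pow, ← pow_mul, ← pow_mul, mul_comm p (p - 1)]
  rcases c with ⟨c1, b⟩
  obtain rfl : c1 = ((1 : SL(2, ℤ)) : CI M) := hG _ hc
  -- both cusps over `∞`
  have key : ∀ F ∈ BAD.LSub p M, ∀ Gf ∈ BAD.LSub p M, ∀ (Y ws : LaurentSeries ℂ) (d : ℂ),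
      Nice K Y → PowApprox K p (rp P ^ p) Y → Fine K ws → d ≠ 0 →
      lexp M 1 F * (HahnSeries.C d * Y) ^ (p - 1) = (lexp M 1 Gf * ws) ^ p → ∀ k : ℕ,
      SerIn P.ring (twistSer (zetaC M ^ k) (lexp M 1 F)) →
      P.UnitCoeff (twistSer (zetaC M ^ k) (lexp M 1 F)) →
      PowApprox K p (rp P ^ p) (twistSer (zetaC M ^ k) (lexp M 1 F)) := by
    intro F hF Gf hGf Y ws d hY hnY hws hd heq k hi' hu'
    refine (powApprox_lexp hM hF (fun j => ?_) ?_ hGf hY hnY
      (a := ((d : ℂ) ^ (p - 1))⁻¹) hws haux ?_).twist k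
    · rw [CPlace.mem_ring, ← abv_twist_coeff (N := M) P k]; exact hi' j
    · obtain ⟨j, hj⟩ := hu'
      exact ⟨j, by rw [← abv_twist_coeff (N := M) P k]; exact hj⟩
    · rw [← heq, mul_pow, ← map_pow, mul_left_comm (lexp M 1 F), ← mul_assoc, ← map_mul,
        inv_mul_cancel₀ (pow_ne_zero _ hd), map_one, one_mul]
  have hM1 : ∀ {w : ℍ → ℂ} {s : LaurentSeries ℂ}, HasLExp 1 w s → HasLExp M w (expandL M s) :=
    fun hw => by have := BAD.hasLExp_raise M hw; rwa [mul_one] at this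
  have hcancel : ∀ {b : ℂ} (_ : b ≠ 0) (s : LaurentSeries ℂ), expandL M s ^ p =
      HahnSeries.C b⁻¹ * expandL M (HahnSeries.C b * s ^ p) := fun hb s => by
    rw [map_mul, expandL_C', ← mul_assoc, ← map_mul, inv_mul_cancel₀ hb, map_one, one_mul, map_pow]
  have hrc : 0 ≤ rp P ^ p := rpp_pos.le
  cases b with
  | false =>
    obtain ⟨k, hk'⟩ := E_basic_inf hM hup
    rw [LevelMp.E_inf hup, hk'] at hci hcu ⊢
    refine key _ hup _ hgL _ (wSer M haux ^ (i * (p - 1))) a⁻¹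
      (hy.expandL (q := M)) (hn.expandL hrc)
      ((fine_wSer hM haux).pow _) (inv_ne_zero ha) ?_ k hci hcu
    rw [← hcancel ha]
    refine ((hasLExp_at_inf hup).mul (((hM1 hsv).pow p).pow (p - 1))).series_unique
      ((((hasLExp_at_inf hgL).mul ((hasLExp_auxW haux).pow (i * (p - 1)))).pow p).congr_fun
        fun τ => ?_)
    have hvz := congrFun (divW_mul_pow haux i v) τ
    simp only [Pi.mul_apply, Pi.pow_apply] at hvz
    simp only [g, z, Pi.mul_apply, Pi.pow_apply]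
    rw [← hvz]
    simp only [mul_pow, ← pow_mul]
    ring
  | true =>
    have hA := BAD.atkin_mem_LSub hM hup
    obtain ⟨k, hk'⟩ := E_basic_inf hM hA
    rw [LevelMp.E_zero' hup, hk'] at hci hcu ⊢
    refine key _ hA _ (BAD.atkin_mem_LSub hM hgL) _ (expandL p (wSer M haux) ^ (i * (p - 1))) a'⁻¹
      (h''.1.expandL (q := M)) (hn''.expandL hrc) ((fine_wSer hM haux).expandL.pow _)
      (inv_ne_zero ha') ?_
      k hci hcu
    rw [← hcancel ha']
    refine ((hasLExp_at_inf hA).mul (((hM1 hsw).pow p).pow (p - 1))).series_unique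
      ((((hasLExp_at_inf (BAD.atkin_mem_LSub hM hgL)).mul
        ((BAD.hasLExp_dilFun p (hasLExp_auxW haux)).pow (i * (p - 1)))).pow p).congr_fun
          fun τ => ?_)
    have hw : wForm hM ((2 * i : ℕ) : ℤ) v = atkin hM z * dilFun p (auxW haux) ^ i := by
      conv_lhs => rw [wForm, ← divW_mul_pow haux i v]
      rw [ES.slash_mul_zero_wt, map_mul, ← map_pow,
        show auxW haux ^ i = fun τ => dif M (refB haux.dvd) (refA haux.dvd) τ ^ i from rfl,
        ES.dif_slash_pow, ES.vmul_of_mem (BAD.atkinMat_mem hM),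
        ES.vmul_of_mem (BAD.atkinMat_mem hM)]
      rfl
    simp only [hw, g, map_mul, map_pow, Pi.mul_apply, Pi.pow_apply]
    simp only [mul_pow, ← pow_mul]
    ring

end FermatAgent.PSEMI
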